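import Mathlib.RingTheory.Invariant.Basic
import Mathlib.RingTheory.Polynomial.Basic
import Mathlib.RingTheory.Ideal.Maps

/-!
# A2 / COUNT glue: the norm argument (`hnorm` from a finite group action), Mathlib-only

`B → B'` commutative rings, `G` a finite group acting on `B'` with `B'^G ⊆ B`
(`Algebra.IsInvariant B B' G`).  If all conjugates `g • x` of `x : B'` lie in an ideal `Q`, then
`x ^ #G ∈ (Q ∩ B) B'`.
-/

set_option autoImplicit false

namespace Fermat.Agent.A2.H973

open Polynomial

variable {B B' G : Type*} [CommRing B] [CommRing B'] [Algebra B B'] [Group G] [Fintype G]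
  [MulSemiringAction G B'] [Algebra.IsInvariant B B' G]

/-- The lower coefficients of the characteristic polynomial `∏ (X - g • x)` lie in `Q` when all
conjugates of `x` do. -/
theorem coeff_charpoly_mem (Q : Ideal B') (x : B') (hx : ∀ g : G, g • x ∈ Q) (i : ℕ)
    (hi : i ≠ Fintype.card G) : (MulSemiringAction.charpoly G x).coeff i ∈ Q := by
  have h1 : (MulSemiringAction.charpoly G x).map (Ideal.Quotient.mk Q) =
      (X : (B' ⧸ Q)[X]) ^ Fintype.card G := by
    rw [MulSemiringAction.charpoly_eq, Polynomial.map_prod]
    have : ∀ g : G, (X - C (g • x)).map (Ideal.Quotient.mk Q) = (X : (B' ⧸ Q)[X]) := by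
      intro g
      rw [Polynomial.map_sub, Polynomial.map_X, Polynomial.map_C,
        Ideal.Quotient.eq_zero_iff_mem.2 (hx g), map_zero, sub_zero]
    simp only [this, Finset.prod_const, Finset.card_univ]
  have h2 := congrArg (fun p => p.coeff i) h1
  simp only [Polynomial.coeff_map, Polynomial.coeff_X_pow, if_neg hi] at h2
  exact Ideal.Quotient.eq_zero_iff_mem.1 h2

/-- **The norm argument.**  If all conjugates of `x` lie in `Q`, then `x ^ #G ∈ (Q ∩ B) B'`. -/
theorem pow_card_mem_map_comap (Q : Ideal B') (x : B') (hx : ∀ g : G, g • x ∈ Q) :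
    x ^ Fintype.card G ∈ (Q.comap (algebraMap B B')).map (algebraMap B B') := by
  classical
  rcases subsingleton_or_nontrivial B' with hB | hB
  · have h0 : x ^ Fintype.card G = 0 := Subsingleton.elim _ _
    rw [h0]
    exact Ideal.zero_mem _
  set p := MulSemiringAction.charpoly G x with hp
  have hmonic : p.Monic := MulSemiringAction.monic_charpoly G x
  have hdeg : p.natDegree = Fintype.card G := by
    rw [hp, MulSemiringAction.charpoly_eq,
      Polynomial.natDegree_prod_of_monic _ _ (fun g _ => monic_X_sub_C (g • x))]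
    simp
  obtain ⟨q, hq1, -, -⟩ := Polynomial.lifts_and_natDegree_eq_and_monic
    (Algebra.IsInvariant.charpoly_mem_lifts B B' G x) hmonic
  have hq1' : q.map (algebraMap B B') = p := hq1
  have heval : p.eval x = 0 := MulSemiringAction.eval_charpoly G x
  rw [Polynomial.eval_eq_sum_range, hdeg, Finset.sum_range_succ] at heval
  have hlead : p.coeff (Fintype.card G) = 1 := by
    rw [← hdeg]; exact hmonic.coeff_natDegree
  rw [hlead, one_mul] at heval
  have hx' : x ^ Fintype.card G = - ∑ i ∈ Finset.range (Fintype.card G), p.coeff i * x ^ i := by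
    rw [eq_neg_iff_add_eq_zero, add_comm]; exact heval
  rw [hx']
  apply Ideal.neg_mem_iff _ |>.2
  apply Ideal.sum_mem
  intro i hi
  have hi' : i ≠ Fintype.card G := (Finset.mem_range.1 hi).ne
  have hc : p.coeff i ∈ Q := coeff_charpoly_mem Q x hx i hi'
  have hc' : p.coeff i = algebraMap B B' (q.coeff i) := by
    rw [← hq1', Polynomial.coeff_map]
  have hq : q.coeff i ∈ Q.comap (algebraMap B B') := by
    rw [Ideal.mem_comap, ← hc']; exact hc
  rw [hc']
  exact Ideal.mul_mem_right _ _ (Ideal.mem_map_of_mem _ hq)

end Fermat.Agent.A2.H973
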