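import Mathlib.RingTheory.Discriminant
import Mathlib.RingTheory.Trace.Basic
import Mathlib.LinearAlgebra.Determinant
import Mathlib.LinearAlgebra.StdBasis
import Mathlib.LinearAlgebra.Matrix.Block
import Mathlib.RingTheory.IntegralClosure.IntegrallyClosed
import Mathlib.LinearAlgebra.Dimension.Free

/-!
# A2 / NODE-COUNT, part B: discriminants and indices (Mathlib-only)

`Λ` a domain.  For an algebra homomorphism `φ : A → Y` between finite free `Λ`-algebras of the same
rank which is injective (nonzero determinant in bases), traces are compatible and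
`discr A = (det φ)² · discr Y`.  Discriminants of two bases are associated, and
`discr (ι → C) = (discr C) ^ #ι`.
-/

set_option autoImplicit false
set_option linter.unusedSectionVars false

namespace Fermat.Agent.A2.H973

open Module

section TraceCompat

variable {Λ : Type*} [CommRing Λ] [IsDomain Λ]
variable {A Y : Type*} [CommRing A] [CommRing Y] [Algebra Λ A] [Algebra Λ Y]
variable {κ : Type*} [Fintype κ] [DecidableEq κ]

/-- **Trace compatibility.**  If `φ : A → Y` is an algebra homomorphism whose matrix in bases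
`bA`, `bY` (same index type) has nonzero determinant, then `Tr_A a = Tr_Y (φ a)`. -/
theorem trace_eq_trace_of_det_ne_zero (bA : Basis κ Λ A) (bY : Basis κ Λ Y) (φ : A →ₐ[Λ] Y)
    (h : (LinearMap.toMatrix bA bY φ.toLinearMap).det ≠ 0) (a : A) :
    Algebra.trace Λ A a = Algebra.trace Λ Y (φ a) := by
  set T := LinearMap.toMatrix bA bY φ.toLinearMap with hT
  set L := Algebra.leftMulMatrix bA a with hL
  set L' := Algebra.leftMulMatrix bY (φ a) with hL'
  have hcomm : T * L = L' * T := by
    rw [hL, hL', Algebra.leftMulMatrix_apply, Algebra.leftMulMatrix_apply, hT,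
      ← LinearMap.toMatrix_comp bA bA bY, ← LinearMap.toMatrix_comp bA bY bY]
    congr 1
    apply LinearMap.ext
    intro x
    simp
  rw [Algebra.trace_eq_matrix_trace bA, Algebra.trace_eq_matrix_trace bY]
  apply mul_left_cancel₀ h
  have h1 : T.det • L = T.adjugate * (L' * T) := by
    rw [← hcomm, ← Matrix.mul_assoc, Matrix.adjugate_mul, Matrix.smul_mul, Matrix.one_mul]
  calc T.det * Matrix.trace L = Matrix.trace (T.det • L) := by
        rw [Matrix.trace_smul, smul_eq_mul]
    _ = Matrix.trace (T.adjugate * (L' * T)) := by rw [h1]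
    _ = Matrix.trace ((L' * T) * T.adjugate) := Matrix.trace_mul_comm _ _
    _ = Matrix.trace (T.det • L') := by
        rw [Matrix.mul_assoc, Matrix.mul_adjugate, Matrix.mul_smul, Matrix.mul_one]
    _ = T.det * Matrix.trace L' := by rw [Matrix.trace_smul, smul_eq_mul]

/-- **Index formula for discriminants**: `discr A = (det φ)² · discr Y`. -/
theorem discr_eq_det_sq_mul_discr (bA : Basis κ Λ A) (bY : Basis κ Λ Y) (φ : A →ₐ[Λ] Y)
    (h : (LinearMap.toMatrix bA bY φ.toLinearMap).det ≠ 0) :
    Algebra.discr Λ bA =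
      (LinearMap.toMatrix bA bY φ.toLinearMap).det ^ 2 * Algebra.discr Λ bY := by
  set T := LinearMap.toMatrix bA bY φ.toLinearMap with hT
  have h1 : (fun j => φ (bA j)) = Matrix.vecMul (bY : κ → Y) (T.map (algebraMap Λ Y)) := by
    funext j
    simp only [Matrix.vecMul, dotProduct, Matrix.map_apply]
    have h2 : ∀ i, T i j = bY.repr (φ (bA j)) i := fun i => by
      rw [hT, LinearMap.toMatrix_apply]; rfl
    conv_lhs => rw [← bY.sum_repr (φ (bA j))]
    apply Finset.sum_congr rfl
    intro i _
    rw [h2, Algebra.smul_def, mul_comm]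
  rw [← Algebra.discr_of_matrix_vecMul, ← h1]
  simp only [Algebra.discr_def]
  congr 1
  ext i j
  simp only [Algebra.traceMatrix_apply, Algebra.traceForm_apply]
  rw [trace_eq_trace_of_det_ne_zero bA bY φ h, map_mul]

/-- Discriminants of two bases of the same algebra (possibly indexed differently) are
associated. -/
theorem associated_discr_of_bases {κ' : Type*} [Fintype κ'] [DecidableEq κ']
    (b : Basis κ Λ A) (b' : Basis κ' Λ A) :
    Associated (Algebra.discr Λ b) (Algebra.discr Λ b') := by
  let e : κ' ≃ κ := b'.indexEquiv b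
  let b'' : Basis κ Λ A := b'.reindex e
  have h1 : Algebra.discr Λ b'' = Algebra.discr Λ b' := by
    have := Algebra.discr_reindex (A := Λ) b' e
    rw [← this]
    congr 1
    funext i
    simp [b'']
  rw [← h1]
  set T := LinearMap.toMatrix b b'' (AlgHom.id Λ A).toLinearMap with hT
  set T' := LinearMap.toMatrix b'' b (AlgHom.id Λ A).toLinearMap with hT'
  have hTT' : T * T' = 1 := by
    rw [hT, hT', ← LinearMap.toMatrix_comp b'' b b'']
    have : (AlgHom.id Λ A).toLinearMap ∘ₗ (AlgHom.id Λ A).toLinearMap = LinearMap.id := by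
      apply LinearMap.ext; intro x; rfl
    rw [this, LinearMap.toMatrix_id]
  have hdet : T.det * T'.det = 1 := by rw [← Matrix.det_mul, hTT', Matrix.det_one]
  have hu : IsUnit T.det := IsUnit.of_mul_eq_one _ hdet
  have hne : T.det ≠ 0 := hu.ne_zero
  have h2 := discr_eq_det_sq_mul_discr b b'' (AlgHom.id Λ A) hne
  rw [h2]
  have hu2 : IsUnit (T.det ^ 2) := hu.pow 2
  obtain ⟨u, hu⟩ := hu2
  refine ⟨u⁻¹, ?_⟩
  rw [← hu, mul_comm (u : Λ), mul_assoc, Units.mul_inv, mul_one]

end TraceCompat

section PiDiscr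

variable {Λ : Type*} [CommRing Λ] [IsDomain Λ]
variable {C : Type*} [CommRing C] [Algebra Λ C]
variable {κ : Type*} [Fintype κ] [DecidableEq κ]
variable {ι : Type*} [Fintype ι] [DecidableEq ι]

/-- The trace of the product algebra `ι → C` is the sum of the traces of the components. -/
theorem trace_pi_apply (b : Basis κ Λ C) (y : ι → C) :
    Algebra.trace Λ (ι → C) y = ∑ s, Algebra.trace Λ C (y s) := by
  classical
  let B : Basis (Σ _ : ι, κ) Λ (ι → C) := Pi.basis (fun _ : ι => b)
  rw [Algebra.trace_eq_matrix_trace B]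
  simp only [Matrix.trace, Matrix.diag_apply, Algebra.leftMulMatrix_eq_repr_mul]
  rw [Fintype.sum_sigma]
  apply Finset.sum_congr rfl
  intro s _
  rw [Algebra.trace_eq_matrix_trace b]
  simp only [Matrix.trace, Matrix.diag_apply, Algebra.leftMulMatrix_eq_repr_mul]
  apply Finset.sum_congr rfl
  intro i _
  simp only [B, Pi.basis_repr, Pi.basis_apply, Pi.mul_apply, Pi.single_eq_same]

/-- The standard basis of `ι → C` built from a basis of `C`, indexed by `κ × ι`. -/
noncomputable def piBasis (b : Basis κ Λ C) : Basis (κ × ι) Λ (ι → C) :=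
  (Pi.basis (fun _ : ι => b)).reindex ((Equiv.sigmaEquivProd ι κ).trans (Equiv.prodComm ι κ))

theorem piBasis_apply (b : Basis κ Λ C) (i : κ) (s : ι) :
    piBasis (ι := ι) b (i, s) = Pi.single s (b i) := by
  simp [piBasis, Pi.basis_apply]

/-- **Discriminant of a product algebra**: `discr (ι → C) = (discr C) ^ #ι`. -/
theorem discr_piBasis (b : Basis κ Λ C) :
    Algebra.discr Λ (piBasis (ι := ι) b) = Algebra.discr Λ b ^ Fintype.card ι := by
  classical
  have h : Algebra.traceMatrix Λ (piBasis (ι := ι) b) =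
      Matrix.blockDiagonal (fun _ : ι => Algebra.traceMatrix Λ b) := by
    ext ⟨i, s⟩ ⟨j, s'⟩
    rw [Matrix.blockDiagonal_apply, Algebra.traceMatrix_apply, Algebra.traceForm_apply,
      piBasis_apply, piBasis_apply, trace_pi_apply b]
    by_cases hss : s = s'
    · subst hss
      rw [if_pos rfl, Algebra.traceMatrix_apply, Algebra.traceForm_apply]
      rw [Finset.sum_eq_single s]
      · simp
      · intro t _ hts
        simp [Pi.single_eq_of_ne hts]
      · intro hs
        exact absurd (Finset.mem_univ s) hs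
    · rw [if_neg hss]
      apply Finset.sum_eq_zero
      intro t _
      by_cases hts : t = s
      · subst hts
        have : t ≠ s' := hss
        simp [Pi.single_eq_of_ne this]
      · simp [Pi.single_eq_of_ne hts]
  rw [Algebra.discr_def, h, Matrix.det_blockDiagonal]
  simp [Algebra.discr_def]

end PiDiscr

section Compare

variable {Λ : Type*} [CommRing Λ] [IsDomain Λ]
variable {A Y : Type*} [CommRing A] [CommRing Y] [Algebra Λ A] [Algebra Λ Y]
variable [Module.Free Λ Y] [Module.Finite Λ Y]
variable {κ : Type*} [Fintype κ] [DecidableEq κ]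

/-- An injective algebra homomorphism `φ : A → Y` of finite free algebras of the same rank is
represented by an endomorphism `F` of `Y` with the same range, and
`discr A ~ (det F)² · discr Y`. -/
theorem exists_endo_of_injective (bA : Basis κ Λ A) (φ : A →ₐ[Λ] Y)
    (hφ : Function.Injective φ) (hr : Fintype.card κ = finrank Λ Y) :
    ∃ F : Y →ₗ[Λ] Y, LinearMap.range F = LinearMap.range φ.toLinearMap ∧
      LinearMap.det F ≠ 0 ∧
      Associated (Algebra.discr Λ bA)
        (LinearMap.det F ^ 2 * Algebra.discr Λ (Module.finBasis Λ Y)) := by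
  classical
  set bY := Module.finBasis Λ Y with hbY
  let eκ : κ ≃ Fin (finrank Λ Y) := Fintype.equivFinOfCardEq hr
  let bA₁ : Basis (Fin (finrank Λ Y)) Λ A := bA.reindex eκ
  let E : Y ≃ₗ[Λ] A := bY.equiv bA₁ (Equiv.refl _)
  let F : Y →ₗ[Λ] Y := φ.toLinearMap ∘ₗ E.toLinearMap
  have hFrange : LinearMap.range F = LinearMap.range φ.toLinearMap := by
    apply le_antisymm
    · rintro _ ⟨y, rfl⟩
      exact ⟨E y, rfl⟩
    · rintro _ ⟨a, rfl⟩
      exact ⟨E.symm a, by simp [F]⟩
  have hFinj : Function.Injective F := by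
    intro x y hxy
    exact E.injective (hφ hxy)
  have hFdet : LinearMap.det F ≠ 0 := by
    intro h0
    have := (LinearMap.det_eq_zero_iff_ker_ne_bot (f := F)).1 h0
    exact this (LinearMap.ker_eq_bot.2 hFinj)
  have hE1 : LinearMap.toMatrix bY bA₁ E.toLinearMap = 1 := by
    ext i j
    rw [LinearMap.toMatrix_apply]
    simp only [LinearEquiv.coe_coe, E, Module.Basis.equiv_apply, Equiv.refl_apply,
      Module.Basis.repr_self, Matrix.one_apply]
    rw [Finsupp.single_apply]
    simp only [eq_comm]
  have hdetT : (LinearMap.toMatrix bA₁ bY φ.toLinearMap).det = LinearMap.det F := by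
    rw [← LinearMap.det_toMatrix bY F]
    show _ = (LinearMap.toMatrix bY bY (φ.toLinearMap ∘ₗ E.toLinearMap)).det
    rw [LinearMap.toMatrix_comp bY bA₁ bY, hE1, Matrix.mul_one]
  have hT : (LinearMap.toMatrix bA₁ bY φ.toLinearMap).det ≠ 0 := by rwa [hdetT]
  refine ⟨F, hFrange, hFdet, ?_⟩
  have h1 := discr_eq_det_sq_mul_discr bA₁ bY φ hT
  rw [hdetT] at h1
  rw [← h1]
  exact associated_discr_of_bases bA bA₁

/-- **Comparison of two sub-algebras of `Y` via discriminants.**  If `φ : A → Y` and
`φ' : A' → Y` are injective of full rank and `discr A ∣ discr A' ≠ 0`, then the ranges are the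
ranges of endomorphisms `F`, `F'` of `Y` with `det F ∣ det F' ≠ 0`. -/
theorem exists_endo_of_discr_dvd [IsIntegrallyClosed Λ]
    {A' : Type*} [CommRing A'] [Algebra Λ A']
    {κ' : Type*} [Fintype κ'] [DecidableEq κ']
    (bA : Basis κ Λ A) (bA' : Basis κ' Λ A')
    (φ : A →ₐ[Λ] Y) (φ' : A' →ₐ[Λ] Y)
    (hφ : Function.Injective φ) (hφ' : Function.Injective φ')
    (hr : Fintype.card κ = finrank Λ Y) (hr' : Fintype.card κ' = finrank Λ Y)
    (hne : Algebra.discr Λ bA' ≠ 0) (hdvd : Algebra.discr Λ bA ∣ Algebra.discr Λ bA') :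
    ∃ F F' : Y →ₗ[Λ] Y, LinearMap.range F = LinearMap.range φ.toLinearMap ∧
      LinearMap.range F' = LinearMap.range φ'.toLinearMap ∧ LinearMap.det F' ≠ 0 ∧
      LinearMap.det F ∣ LinearMap.det F' := by
  obtain ⟨F, hF, -, hFa⟩ := exists_endo_of_injective bA φ hφ hr
  obtain ⟨F', hF', hF'det, hF'a⟩ := exists_endo_of_injective bA' φ' hφ' hr'
  refine ⟨F, F', hF, hF', hF'det, ?_⟩
  set D := Algebra.discr Λ (Module.finBasis Λ Y) with hD
  have hD0 : D ≠ 0 := by
    intro h0
    apply hne
    have := hF'a.symm.dvd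
    rw [h0, mul_zero] at this
    exact zero_dvd_iff.1 this
  have h1 : LinearMap.det F ^ 2 * D ∣ LinearMap.det F' ^ 2 * D :=
    hFa.symm.dvd.trans (hdvd.trans hF'a.dvd)
  have h2 : LinearMap.det F ^ 2 ∣ LinearMap.det F' ^ 2 := (mul_dvd_mul_iff_right hD0).1 h1
  exact (IsIntegrallyClosed.pow_dvd_pow_iff (two_ne_zero)).1 h2

end Compare

end Fermat.Agent.A2.H973
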