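import Mathlib.LinearAlgebra.Determinant
import Mathlib.LinearAlgebra.FreeModule.PID
import Mathlib.LinearAlgebra.Dimension.Constructions
import Mathlib.LinearAlgebra.Dimension.Finite
import Mathlib.LinearAlgebra.Dimension.Localization
import Mathlib.LinearAlgebra.FreeModule.Finite.Basic
import Mathlib.LinearAlgebra.Matrix.ToLinearEquiv
import Mathlib.RingTheory.OrzechProperty
import Mathlib.RingTheory.Noetherian.Orzech
import Mathlib.LinearAlgebra.FiniteDimensional.Basic

/-!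
# A2 / NODE-COUNT, part A: index calculus for lattices in a product (Mathlib-only)

`Λ` a PID, `Y₁`, `Y₂` finite free `Λ`-modules.  A full-rank sublattice `X ⊆ Y₁ × Y₂` is encoded by an
endomorphism `f` of `Y₁ × Y₂` with `det f ≠ 0` and `range f = X`; its index is `det f` (up to a unit).

Main results:

* `exists_block_factorization` : `det f ~ det u₁ * det u₂` with `range u₁ = {y₁ | (y₁, 0) ∈ range f}`
  and `range u₂ = snd (range f)`  (multiplicativity of the index along `0 → Y₁ → Y₁ × Y₂ → Y₂ → 0`);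
* `snd_surjective_of_det_dvd` : if the index of `range f` divides the index of `range f'`,
  `range f ∩ Y₁ ⊆ range f' ∩ Y₁` and `snd (range f') = Y₂`, then `snd (range f) = Y₂`.
-/

set_option autoImplicit false
set_option linter.unusedSectionVars false

namespace Fermat.Agent.A2.H973

open Module

section Basic

variable {Λ : Type*} [CommRing Λ] [IsDomain Λ]
variable {M : Type*} [AddCommGroup M] [Module Λ M] [Module.Free Λ M] [Module.Finite Λ M]

/-- An endomorphism of a finite free module over a domain with nonzero determinant is injective. -/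
theorem injective_of_det_ne_zero (f : M →ₗ[Λ] M) (h : LinearMap.det f ≠ 0) :
    Function.Injective f := by
  classical
  let b := Module.Free.chooseBasis Λ M
  have hdet : (LinearMap.toMatrix b b f).det ≠ 0 := by
    rwa [LinearMap.det_toMatrix]
  have hinj := Matrix.mulVec_injective_of_det_ne_zero hdet
  intro x y hxy
  apply b.repr.injective
  apply DFunLike.coe_injective
  apply hinj
  show (LinearMap.toMatrix b b f).mulVec (b.repr x) = (LinearMap.toMatrix b b f).mulVec (b.repr y)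
  rw [LinearMap.toMatrix_mulVec_repr, LinearMap.toMatrix_mulVec_repr, hxy]

/-- If `range g ⊆ range f` and `f` is injective then `det f ∣ det g`. -/
theorem det_dvd_det_of_range_le (f g : M →ₗ[Λ] M) (hf : Function.Injective f)
    (h : LinearMap.range g ≤ LinearMap.range f) : LinearMap.det f ∣ LinearMap.det g := by
  let e := LinearEquiv.ofInjective f hf
  let φ : M →ₗ[Λ] M := e.symm.toLinearMap ∘ₗ (LinearMap.codRestrict (LinearMap.range f) g
    (fun x => h (LinearMap.mem_range_self g x)))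
  have hφ : f ∘ₗ φ = g := by
    ext x
    simp only [LinearMap.coe_comp, Function.comp_apply, φ, LinearEquiv.coe_coe]
    have := e.apply_symm_apply (LinearMap.codRestrict (LinearMap.range f) g
      (fun x => h (LinearMap.mem_range_self g x)) x)
    have h2 : (e (e.symm (LinearMap.codRestrict (LinearMap.range f) g
      (fun x => h (LinearMap.mem_range_self g x)) x)) : M) = g x := by
      rw [this]; rfl
    rw [← h2]
    rfl
  rw [← hφ, LinearMap.det_comp]
  exact dvd_mul_right _ _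

/-- Two injective endomorphisms with the same range have associated determinants. -/
theorem associated_det_of_range_eq (f g : M →ₗ[Λ] M) (hf : Function.Injective f)
    (hg : Function.Injective g) (h : LinearMap.range f = LinearMap.range g) :
    Associated (LinearMap.det f) (LinearMap.det g) :=
  associated_of_dvd_dvd (det_dvd_det_of_range_le f g hf h.ge)
    (det_dvd_det_of_range_le g f hg h.le)

/-- An endomorphism with unit determinant is surjective. -/
theorem surjective_of_isUnit_det (f : M →ₗ[Λ] M) (h : IsUnit (LinearMap.det f)) :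
    Function.Surjective f := by
  have hu : IsUnit f := (LinearMap.isUnit_iff_isUnit_det f).2 h
  obtain ⟨u, rfl⟩ := hu
  intro y
  refine ⟨(↑u⁻¹ : M →ₗ[Λ] M) y, ?_⟩
  have : ((u : M →ₗ[Λ] M) * (↑u⁻¹ : M →ₗ[Λ] M)) y = y := by
    rw [Units.mul_inv]; rfl
  exact this

/-- A surjective endomorphism has unit determinant. -/
theorem isUnit_det_of_surjective (f : M →ₗ[Λ] M) (h : Function.Surjective f) :
    IsUnit (LinearMap.det f) := by
  have hinj : Function.Injective f := OrzechProperty.injective_of_surjective_endomorphism f h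
  let e : M ≃ₗ[Λ] M := LinearEquiv.ofBijective f ⟨hinj, h⟩
  have : (e : M →ₗ[Λ] M) = f := by ext; rfl
  rw [← this]
  exact LinearEquiv.isUnit_det' e

end Basic

section Block

variable {Λ : Type*} [CommRing Λ] [IsDomain Λ] [IsPrincipalIdealRing Λ]
variable {Y₁ : Type*} [AddCommGroup Y₁] [Module Λ Y₁] [Module.Free Λ Y₁] [Module.Finite Λ Y₁]
variable {Y₂ : Type*} [AddCommGroup Y₂] [Module Λ Y₂] [Module.Free Λ Y₂] [Module.Finite Λ Y₂]

/-- The part of a submodule of `Y₁ × Y₂` lying in `Y₁ × 0`, as a submodule of `Y₁`. -/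
def fstPart (X : Submodule Λ (Y₁ × Y₂)) : Submodule Λ Y₁ := X.comap (LinearMap.inl Λ Y₁ Y₂)

/-- The projection of a submodule of `Y₁ × Y₂` to `Y₂`. -/
def sndPart (X : Submodule Λ (Y₁ × Y₂)) : Submodule Λ Y₂ := X.map (LinearMap.snd Λ Y₁ Y₂)

omit [IsDomain Λ] [IsPrincipalIdealRing Λ] [Module.Free Λ Y₁] [Module.Finite Λ Y₁]
  [Module.Free Λ Y₂] [Module.Finite Λ Y₂] in
theorem mem_fstPart {X : Submodule Λ (Y₁ × Y₂)} {y : Y₁} : y ∈ fstPart X ↔ (y, (0 : Y₂)) ∈ X :=
  Iff.rfl

omit [IsDomain Λ] [IsPrincipalIdealRing Λ] [Module.Free Λ Y₁] [Module.Finite Λ Y₁]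
  [Module.Free Λ Y₂] [Module.Finite Λ Y₂] in
theorem mem_sndPart {X : Submodule Λ (Y₁ × Y₂)} {y : Y₂} :
    y ∈ sndPart X ↔ ∃ y₁ : Y₁, (y₁, y) ∈ X := by
  constructor
  · rintro ⟨⟨a, b⟩, hab, rfl⟩
    exact ⟨a, hab⟩
  · rintro ⟨a, ha⟩
    exact ⟨(a, y), ha, rfl⟩

/-- Rank count: a full-rank submodule of `Y₁ × Y₂` has full-rank first part and second part. -/
theorem finrank_parts (X : Submodule Λ (Y₁ × Y₂))
    (hX : finrank Λ X = finrank Λ Y₁ + finrank Λ Y₂) :
    finrank Λ (fstPart X) = finrank Λ Y₁ ∧ finrank Λ (sndPart X) = finrank Λ Y₂ := by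
  -- the projection `X → Y₂`
  let p : X →ₗ[Λ] Y₂ := (LinearMap.snd Λ Y₁ Y₂) ∘ₗ X.subtype
  have hrange : LinearMap.range p = sndPart X := by
    ext y
    simp only [LinearMap.mem_range, p, sndPart, Submodule.mem_map]
    constructor
    · rintro ⟨x, rfl⟩
      exact ⟨x.1, x.2, rfl⟩
    · rintro ⟨x, hx, rfl⟩
      exact ⟨⟨x, hx⟩, rfl⟩
  -- kernel of `p` is isomorphic to the first part
  let j : LinearMap.ker p →ₗ[Λ] fstPart X :=
    { toFun := fun x => ⟨(x.1 : Y₁ × Y₂).1, by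
        have h0 : ((x.1 : Y₁ × Y₂)).2 = 0 := x.2
        have hx : (x.1 : Y₁ × Y₂) ∈ X := x.1.2
        show ((x.1 : Y₁ × Y₂).1, (0 : Y₂)) ∈ X
        rw [← h0]
        exact hx⟩
      map_add' := fun x y => rfl
      map_smul' := fun c x => rfl }
  have hj_inj : Function.Injective j := by
    intro x y hxy
    have h1 : ((x.1 : Y₁ × Y₂)).1 = ((y.1 : Y₁ × Y₂)).1 := congrArg Subtype.val hxy
    have hx0 : ((x.1 : Y₁ × Y₂)).2 = 0 := x.2
    have hy0 : ((y.1 : Y₁ × Y₂)).2 = 0 := y.2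
    apply Subtype.ext
    apply Subtype.ext
    exact Prod.ext h1 (hx0.trans hy0.symm)
  have hj_surj : Function.Surjective j := by
    rintro ⟨y, hy⟩
    refine ⟨⟨⟨(y, 0), hy⟩, rfl⟩, rfl⟩
  let je : LinearMap.ker p ≃ₗ[Λ] fstPart X := LinearEquiv.ofBijective j ⟨hj_inj, hj_surj⟩
  have h1 : finrank Λ (X ⧸ LinearMap.ker p) + finrank Λ (LinearMap.ker p) = finrank Λ X :=
    Submodule.finrank_quotient_add_finrank (LinearMap.ker p)
  have h2 : finrank Λ (X ⧸ LinearMap.ker p) = finrank Λ (sndPart X) := by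
    rw [← hrange]
    exact LinearEquiv.finrank_eq p.quotKerEquivRange
  have h3 : finrank Λ (LinearMap.ker p) = finrank Λ (fstPart X) := LinearEquiv.finrank_eq je
  have h4 : finrank Λ (fstPart X) ≤ finrank Λ Y₁ := Submodule.finrank_le _
  have h5 : finrank Λ (sndPart X) ≤ finrank Λ Y₂ := Submodule.finrank_le _
  omega

/-- **Block factorisation of the index.**  For an endomorphism `f` of `Y₁ × Y₂` with nonzero
determinant there are injective endomorphisms `u₁` of `Y₁` and `u₂` of `Y₂` whose ranges are the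
first part and the second part of `range f`, with `det f ~ det u₁ * det u₂`. -/
theorem exists_block_factorization (f : (Y₁ × Y₂) →ₗ[Λ] (Y₁ × Y₂)) (hf : LinearMap.det f ≠ 0) :
    ∃ (u₁ : Y₁ →ₗ[Λ] Y₁) (u₂ : Y₂ →ₗ[Λ] Y₂),
      Function.Injective u₁ ∧ Function.Injective u₂ ∧
      LinearMap.range u₁ = fstPart (LinearMap.range f) ∧
      LinearMap.range u₂ = sndPart (LinearMap.range f) ∧
      Associated (LinearMap.det f) (LinearMap.det u₁ * LinearMap.det u₂) := by
  classical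
  have hfinj : Function.Injective f := injective_of_det_ne_zero f hf
  set X : Submodule Λ (Y₁ × Y₂) := LinearMap.range f with hXdef
  have hXrank : finrank Λ X = finrank Λ Y₁ + finrank Λ Y₂ := by
    have := LinearEquiv.finrank_eq (LinearEquiv.ofInjective f hfinj)
    rw [← this, Module.finrank_prod]
  obtain ⟨hr1, hr2⟩ := finrank_parts X hXrank
  -- isomorphisms `Y₁ ≃ fstPart X`, `Y₂ ≃ sndPart X`
  obtain ⟨e₁⟩ := FiniteDimensional.nonempty_linearEquiv_of_finrank_eq
    (R := Λ) (M := Y₁) (M' := fstPart X) hr1.symm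
  obtain ⟨e₂⟩ := FiniteDimensional.nonempty_linearEquiv_of_finrank_eq
    (R := Λ) (M := Y₂) (M' := sndPart X) hr2.symm
  let u₁ : Y₁ →ₗ[Λ] Y₁ := (fstPart X).subtype ∘ₗ e₁.toLinearMap
  let u₂ : Y₂ →ₗ[Λ] Y₂ := (sndPart X).subtype ∘ₗ e₂.toLinearMap
  have hu₁inj : Function.Injective u₁ :=
    (Submodule.injective_subtype _).comp e₁.injective
  have hu₂inj : Function.Injective u₂ :=
    (Submodule.injective_subtype _).comp e₂.injective
  have hu₁range : LinearMap.range u₁ = fstPart X := by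
    rw [LinearMap.range_comp, LinearEquiv.range, Submodule.map_top, Submodule.range_subtype]
  have hu₂range : LinearMap.range u₂ = sndPart X := by
    rw [LinearMap.range_comp, LinearEquiv.range, Submodule.map_top, Submodule.range_subtype]
  -- a lift `H : Y₂ → X ⊆ Y₁ × Y₂` of `u₂`
  let b₂ := Module.Free.chooseBasis Λ Y₂
  have hlift : ∀ i, ∃ x : Y₁ × Y₂, x ∈ X ∧ x.2 = u₂ (b₂ i) := by
    intro i
    have hmem : u₂ (b₂ i) ∈ sndPart X := by
      rw [← hu₂range]; exact LinearMap.mem_range_self _ _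
    obtain ⟨y₁, hy₁⟩ := mem_sndPart.1 hmem
    exact ⟨(y₁, u₂ (b₂ i)), hy₁, rfl⟩
  choose x hxX hx2 using hlift
  let H : Y₂ →ₗ[Λ] Y₁ × Y₂ := b₂.constr Λ x
  have hH_mem : ∀ y, H y ∈ X := by
    intro y
    have : H y = ∑ i, (b₂.repr y i) • x i := by
      simp only [H, Module.Basis.constr_apply_fintype, Module.Basis.equivFun_apply]
    rw [this]
    exact Submodule.sum_mem _ (fun i _ => Submodule.smul_mem _ _ (hxX i))
  have hH_snd : ∀ y, (H y).2 = u₂ y := by
    intro y
    have h1 : (LinearMap.snd Λ Y₁ Y₂) ∘ₗ H = u₂ := by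
      apply b₂.ext
      intro i
      simp only [LinearMap.coe_comp, Function.comp_apply, H, Module.Basis.constr_basis,
        LinearMap.snd_apply]
      exact hx2 i
    exact congrArg (fun g : Y₂ →ₗ[Λ] Y₂ => g y) h1
  -- the three factors
  let A : (Y₁ × Y₂) →ₗ[Λ] (Y₁ × Y₂) := LinearMap.prodMap u₁ LinearMap.id
  let B : (Y₁ × Y₂) →ₗ[Λ] (Y₁ × Y₂) := LinearMap.prodMap LinearMap.id u₂
  let h : Y₂ →ₗ[Λ] Y₁ := (LinearMap.fst Λ Y₁ Y₂) ∘ₗ H
  let S : (Y₁ × Y₂) →ₗ[Λ] (Y₁ × Y₂) :=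
    LinearMap.id + (LinearMap.inl Λ Y₁ Y₂) ∘ₗ h ∘ₗ (LinearMap.snd Λ Y₁ Y₂)
  let S' : (Y₁ × Y₂) →ₗ[Λ] (Y₁ × Y₂) :=
    LinearMap.id - (LinearMap.inl Λ Y₁ Y₂) ∘ₗ h ∘ₗ (LinearMap.snd Λ Y₁ Y₂)
  have hSS' : S ∘ₗ S' = LinearMap.id := by
    apply LinearMap.ext
    rintro ⟨a, b⟩
    apply Prod.ext <;> simp [S, S']
  have hSunit : IsUnit (LinearMap.det S) := by
    have : LinearMap.det S * LinearMap.det S' = 1 := by
      rw [← LinearMap.det_comp, hSS', LinearMap.det_id]
    exact IsUnit.of_mul_eq_one _ this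
  let G : (Y₁ × Y₂) →ₗ[Λ] (Y₁ × Y₂) := B ∘ₗ S ∘ₗ A
  have hG_apply : ∀ y₁ y₂, G (y₁, y₂) = (u₁ y₁ + (H y₂).1, u₂ y₂) := by
    intro y₁ y₂
    simp [G, A, B, S, h]
  have hG_apply' : ∀ y₁ y₂, G (y₁, y₂) = (u₁ y₁, 0) + H y₂ := by
    intro y₁ y₂
    rw [hG_apply]
    apply Prod.ext
    · simp
    · simp [hH_snd]
  have hGdet : LinearMap.det G = LinearMap.det u₂ * (LinearMap.det S * LinearMap.det u₁) := by
    simp only [G, LinearMap.det_comp, A, B, LinearMap.det_prodMap, LinearMap.det_id, mul_one,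
      one_mul]
  have hu₁mem : ∀ y₁, (u₁ y₁, (0 : Y₂)) ∈ X := by
    intro y₁
    have : u₁ y₁ ∈ fstPart X := by
      rw [← hu₁range]; exact LinearMap.mem_range_self _ _
    exact this
  have hGrange : LinearMap.range G = X := by
    apply le_antisymm
    · rintro _ ⟨⟨y₁, y₂⟩, rfl⟩
      rw [hG_apply']
      exact Submodule.add_mem _ (hu₁mem y₁) (hH_mem y₂)
    · intro z hz
      have hz2 : z.2 ∈ sndPart X := mem_sndPart.2 ⟨z.1, hz⟩
      rw [← hu₂range] at hz2
      obtain ⟨y₂, hy₂⟩ := hz2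
      have hdiff : z - H y₂ ∈ X := Submodule.sub_mem _ hz (hH_mem y₂)
      have hdiff2 : (z - H y₂).2 = 0 := by
        simp [hH_snd, hy₂]
      have hk : (z - H y₂).1 ∈ fstPart X := by
        show ((z - H y₂).1, (0 : Y₂)) ∈ X
        rw [← hdiff2]
        exact hdiff
      rw [← hu₁range] at hk
      obtain ⟨y₁, hy₁⟩ := hk
      refine ⟨(y₁, y₂), ?_⟩
      rw [hG_apply']
      apply Prod.ext
      · simp only [Prod.fst_add]
        rw [hy₁]
        simp
      · simp only [Prod.snd_add, zero_add]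
        rw [hH_snd, hy₂]
  have hGinj : Function.Injective G := by
    rw [← LinearMap.ker_eq_bot, LinearMap.ker_eq_bot']
    rintro ⟨y₁, y₂⟩ hy
    rw [hG_apply] at hy
    have h2 : u₂ y₂ = 0 := congrArg Prod.snd hy
    have hy₂ : y₂ = 0 := hu₂inj (h2.trans (map_zero u₂).symm)
    have h1 : u₁ y₁ + (H y₂).1 = 0 := congrArg Prod.fst hy
    rw [hy₂, map_zero] at h1
    simp only [Prod.fst_zero, add_zero] at h1
    have hy₁ : y₁ = 0 := hu₁inj (h1.trans (map_zero u₁).symm)
    rw [hy₁, hy₂]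
    rfl
  refine ⟨u₁, u₂, hu₁inj, hu₂inj, hu₁range, hu₂range, ?_⟩
  have hfG : Associated (LinearMap.det f) (LinearMap.det G) :=
    associated_det_of_range_eq f G hfinj hGinj hGrange.symm
  refine hfG.trans ?_
  rw [hGdet]
  obtain ⟨s, hs⟩ := hSunit
  refine ⟨s⁻¹, ?_⟩
  rw [← hs]
  have : (↑s * ↑s⁻¹ : Λ) = 1 := Units.mul_inv s
  calc LinearMap.det u₂ * (↑s * LinearMap.det u₁) * ↑s⁻¹
      = LinearMap.det u₁ * LinearMap.det u₂ * (↑s * ↑s⁻¹) := by ring
    _ = LinearMap.det u₁ * LinearMap.det u₂ := by rw [this, mul_one]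

/-- **Comparison of two lattices in `Y₁ × Y₂`.**
If the index of `range f` divides the (nonzero) index of `range f'`, the first part of `range f` is
contained in the first part of `range f'`, and `range f'` projects onto `Y₂`, then `range f`
projects onto `Y₂`. -/
theorem snd_surjective_of_det_dvd (f f' : (Y₁ × Y₂) →ₗ[Λ] (Y₁ × Y₂))
    (hf' : LinearMap.det f' ≠ 0)
    (hdet : LinearMap.det f ∣ LinearMap.det f')
    (hK : ∀ y₁ : Y₁, (y₁, (0 : Y₂)) ∈ LinearMap.range f → (y₁, (0 : Y₂)) ∈ LinearMap.range f')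
    (hπ : ∀ y₂ : Y₂, ∃ y₁ : Y₁, (y₁, y₂) ∈ LinearMap.range f') :
    ∀ y₂ : Y₂, ∃ y₁ : Y₁, (y₁, y₂) ∈ LinearMap.range f := by
  have hf : LinearMap.det f ≠ 0 := fun h0 => hf' (by
    rw [h0] at hdet
    exact zero_dvd_iff.1 hdet)
  obtain ⟨u₁, u₂, -, -, hr₁, hr₂, ha⟩ := exists_block_factorization f hf
  obtain ⟨u₁', u₂', hu₁'inj, -, hr₁', hr₂', ha'⟩ := exists_block_factorization f' hf'
  -- `u₂'` is surjective
  have hu₂'surj : Function.Surjective u₂' := by
    intro y
    have : y ∈ LinearMap.range u₂' := by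
      rw [hr₂']; exact mem_sndPart.2 (hπ y)
    exact this
  have hu₂'unit : IsUnit (LinearMap.det u₂') := isUnit_det_of_surjective u₂' hu₂'surj
  -- `det u₁' ∣ det u₁`
  have hle : LinearMap.range u₁ ≤ LinearMap.range u₁' := by
    rw [hr₁, hr₁']
    intro y hy
    exact hK y hy
  obtain ⟨c, hc⟩ := det_dvd_det_of_range_le u₁' u₁ hu₁'inj hle
  have hu₁'ne : LinearMap.det u₁' ≠ 0 := by
    intro h0
    apply hf'
    have h2 : LinearMap.det u₁' * LinearMap.det u₂' = 0 := by rw [h0, zero_mul]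
    exact zero_dvd_iff.1 (h2 ▸ ha'.symm.dvd)
  -- `det u₁' * (c * det u₂) ∣ det u₁' * 1`
  have h1 : LinearMap.det u₁ * LinearMap.det u₂ ∣ LinearMap.det u₁' * LinearMap.det u₂' :=
    ha.symm.dvd.trans (hdet.trans ha'.dvd)
  have h3 : LinearMap.det u₁' * LinearMap.det u₂' ∣ LinearMap.det u₁' * 1 := by
    obtain ⟨s, hs⟩ := hu₂'unit
    refine ⟨(↑s⁻¹ : Λ), ?_⟩
    rw [← hs, mul_assoc, Units.mul_inv]
  have h4 : LinearMap.det u₁ * LinearMap.det u₂ = LinearMap.det u₁' * (c * LinearMap.det u₂) := by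
    rw [hc]; ring
  have h5 : LinearMap.det u₁' * (c * LinearMap.det u₂) ∣ LinearMap.det u₁' * 1 := by
    rw [← h4]; exact h1.trans h3
  have h6 : c * LinearMap.det u₂ ∣ 1 := (mul_dvd_mul_iff_left hu₁'ne).1 h5
  have h7 : IsUnit (LinearMap.det u₂) := isUnit_of_dvd_one (dvd_trans (dvd_mul_left _ _) h6)
  have hsurj : Function.Surjective u₂ := surjective_of_isUnit_det u₂ h7
  intro y₂
  have : y₂ ∈ LinearMap.range u₂ := hsurj y₂
  rw [hr₂] at this
  exact mem_sndPart.1 this

/-- Version of `snd_surjective_of_det_dvd` with associated indices. -/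
theorem snd_surjective_of_associated_det (f f' : (Y₁ × Y₂) →ₗ[Λ] (Y₁ × Y₂))
    (hf' : LinearMap.det f' ≠ 0)
    (hdet : Associated (LinearMap.det f) (LinearMap.det f'))
    (hK : ∀ y₁ : Y₁, (y₁, (0 : Y₂)) ∈ LinearMap.range f → (y₁, (0 : Y₂)) ∈ LinearMap.range f')
    (hπ : ∀ y₂ : Y₂, ∃ y₁ : Y₁, (y₁, y₂) ∈ LinearMap.range f') :
    ∀ y₂ : Y₂, ∃ y₁ : Y₁, (y₁, y₂) ∈ LinearMap.range f :=
  snd_surjective_of_det_dvd f f' hf' hdet.dvd hK hπ

end Block

end Fermat.Agent.A2.H973
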