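import Mathlib.RingTheory.Polynomial.RationalRoot
import Mathlib.RingTheory.PrincipalIdealDomain
import Mathlib.RingTheory.Ideal.Quotient.Operations
import Fermat.Agent.A2.H973.Index
import Fermat.Agent.A2.H973.Discr

/-!
# A2 / NODE-COUNT, part C: sheets of a cover of a two-component curve are disjoint (Mathlib-only)

Abstract form of the `δ`-count (`coord/A2.md` (c3), route G "COUNT").

* `Λ` a PID (in the application `k[x]`, or a localisation of it);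
* `C` a finite free `Λ`-algebra (special fibre `B/w` of the base model) with two ideals
  `𝔭₁, 𝔭₂` (the two components), `𝔭₁ ⊓ 𝔭₂ = ⊥` (reduced), `𝔭₁ ⊔ 𝔭₂` radical (transversal crossings);
* `ℭ` a finite free `Λ`-algebra and `C`-algebra (special fibre `B'/w` of the cover), of rank
  `d · rank C`, with `d` "sheets" over each component: algebra maps `ψ₁ s : ℭ → C ⧸ 𝔭₁`,
  `ψ₂ s : ℭ → C ⧸ 𝔭₂` (`s : ι`, `#ι = d`), the `ψ₁ s` restricting to the quotient map on `C`,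
  jointly injective (`ℭ` reduced, no other components);
* `hnorm`: an element of `ℭ` vanishing on all sheets of colour 2 has a power in `𝔭₂ ℭ`
  (automatic when a finite group acts on `ℭ` over `C` transitively on these sheets);
* `hdisc`: `discr ℭ ∣ (discr C) ^ d ≠ 0` (the cover is unramified in the generic fibre and both
  discriminants are primitive).

Conclusion: `ℭ → ∏ₛ C ⧸ 𝔭₂` is surjective; in particular two different sheets of colour 2 are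
disjoint (`ker (ψ₂ s) ⊔ ker (ψ₂ s') = ⊤`).  No local equations, no lengths, no point counting.
-/

set_option autoImplicit false
set_option linter.unusedSectionVars false

namespace Fermat.Agent.A2.H973

open Module

section Sheets

variable {Λ : Type*} [CommRing Λ] [IsDomain Λ] [IsPrincipalIdealRing Λ]
variable {C : Type*} [CommRing C] [Algebra Λ C]
variable {ℭ : Type*} [CommRing ℭ] [Algebra Λ ℭ]
variable [Algebra C ℭ] [IsScalarTower Λ C ℭ]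
variable (𝔭₁ 𝔭₂ : Ideal C)
variable {ι : Type*} [Fintype ι] [DecidableEq ι]

omit [IsDomain Λ] [IsPrincipalIdealRing Λ] [Fintype ι] [DecidableEq ι] in
/-- Key step: an element of `ℭ` vanishing on all sheets of colour 2 restricts on a sheet of
colour 1 to (the class of) an element of `𝔭₂`. -/
theorem exists_mem_of_forall_eq_zero (hrad : (𝔭₁ ⊔ 𝔭₂).IsRadical)
    (ψ₁ : ι → ℭ →ₐ[Λ] C ⧸ 𝔭₁) (ψ₂ : ι → ℭ →ₐ[Λ] C ⧸ 𝔭₂)
    (hψ₁ : ∀ s c, ψ₁ s (algebraMap C ℭ c) = Ideal.Quotient.mk 𝔭₁ c)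
    (hnorm : ∀ x : ℭ, (∀ s, ψ₂ s x = 0) → ∃ k : ℕ, x ^ k ∈ 𝔭₂.map (algebraMap C ℭ))
    (x : ℭ) (hx : ∀ s, ψ₂ s x = 0) (s : ι) :
    ∃ b ∈ 𝔭₂, ψ₁ s x = Ideal.Quotient.mk 𝔭₁ b := by
  obtain ⟨k, hk⟩ := hnorm x hx
  set J : Ideal (C ⧸ 𝔭₁) := 𝔭₂.map (Ideal.Quotient.mk 𝔭₁) with hJ
  have hle : 𝔭₂.map (algebraMap C ℭ) ≤ J.comap (ψ₁ s).toRingHom := by
    rw [Ideal.map_le_iff_le_comap]
    intro c hc
    rw [Ideal.mem_comap, Ideal.mem_comap]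
    show ψ₁ s (algebraMap C ℭ c) ∈ J
    rw [hψ₁]
    exact Ideal.mem_map_of_mem _ hc
  have h1 : (ψ₁ s x) ^ k ∈ J := by
    have := hle hk
    rw [Ideal.mem_comap] at this
    have h2 : (ψ₁ s).toRingHom (x ^ k) = (ψ₁ s x) ^ k := by
      show ψ₁ s (x ^ k) = _
      rw [map_pow]
    rwa [h2] at this
  obtain ⟨c, hc⟩ := Ideal.Quotient.mk_surjective (ψ₁ s x)
  have h3 : c ^ k ∈ 𝔭₁ ⊔ 𝔭₂ := by
    have h4 : c ^ k ∈ J.comap (Ideal.Quotient.mk 𝔭₁) := by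
      rw [Ideal.mem_comap, map_pow, hc]; exact h1
    rw [hJ, Ideal.comap_map_of_surjective _ Ideal.Quotient.mk_surjective] at h4
    have h5 : Ideal.comap (Ideal.Quotient.mk 𝔭₁) ⊥ = 𝔭₁ := by
      rw [← RingHom.ker_eq_comap_bot, Ideal.mk_ker]
    rw [h5, sup_comm] at h4
    exact h4
  have h6 : c ∈ 𝔭₁ ⊔ 𝔭₂ := hrad ⟨k, h3⟩
  obtain ⟨a, ha, b, hb, hab⟩ := Submodule.mem_sup.1 h6
  refine ⟨b, hb, ?_⟩
  rw [← hc, ← hab, map_add, Ideal.Quotient.eq_zero_iff_mem.2 ha, zero_add]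

variable [Module.Free Λ (C ⧸ 𝔭₁)] [Module.Free Λ (C ⧸ 𝔭₂)]
variable {κ κ' : Type*} [Fintype κ] [DecidableEq κ] [Fintype κ'] [DecidableEq κ']

/-- **NODE-COUNT, surjectivity form.**  Under the hypotheses described in the header of this file,
the map `ℭ → ∏ₛ C ⧸ 𝔭₂` given by the sheets of colour 2 is surjective. -/
theorem exists_forall_eq_of_discr_dvd
    (h𝔭 : 𝔭₁ ⊓ 𝔭₂ = ⊥) (hrad : (𝔭₁ ⊔ 𝔭₂).IsRadical)
    (bC : Basis κ Λ C) (bℭ : Basis κ' Λ ℭ)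
    (hrankC : finrank Λ (C ⧸ 𝔭₁) + finrank Λ (C ⧸ 𝔭₂) = Fintype.card κ)
    (hrankℭ : Fintype.card κ' = Fintype.card ι * Fintype.card κ)
    (ψ₁ : ι → ℭ →ₐ[Λ] C ⧸ 𝔭₁) (ψ₂ : ι → ℭ →ₐ[Λ] C ⧸ 𝔭₂)
    (hψ₁ : ∀ s c, ψ₁ s (algebraMap C ℭ c) = Ideal.Quotient.mk 𝔭₁ c)
    (hinj : ∀ x : ℭ, (∀ s, ψ₁ s x = 0) → (∀ s, ψ₂ s x = 0) → x = 0)
    (hnorm : ∀ x : ℭ, (∀ s, ψ₂ s x = 0) → ∃ k : ℕ, x ^ k ∈ 𝔭₂.map (algebraMap C ℭ))
    (hne : Algebra.discr Λ bC ≠ 0)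
    (hdisc : Algebra.discr Λ bℭ ∣ Algebra.discr Λ bC ^ Fintype.card ι) :
    ∀ y : ι → C ⧸ 𝔭₂, ∃ x : ℭ, ∀ s, ψ₂ s x = y s := by
  classical
  have : Module.Finite Λ C := Module.Finite.of_basis bC
  have : Module.Finite Λ (C ⧸ 𝔭₁) :=
    Module.Finite.of_surjective (Ideal.Quotient.mkₐ Λ 𝔭₁).toLinearMap
      (Ideal.Quotient.mkₐ_surjective Λ 𝔭₁)
  have : Module.Finite Λ (C ⧸ 𝔭₂) :=
    Module.Finite.of_surjective (Ideal.Quotient.mkₐ Λ 𝔭₂).toLinearMap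
      (Ideal.Quotient.mkₐ_surjective Λ 𝔭₂)
  -- the ambient algebra `Y = Y₁ × Y₂`
  let φ : ℭ →ₐ[Λ] (ι → C ⧸ 𝔭₁) × (ι → C ⧸ 𝔭₂) := AlgHom.prod (AlgHom.pi ψ₁) (AlgHom.pi ψ₂)
  let g : (ι → C) →ₐ[Λ] (ι → C ⧸ 𝔭₁) × (ι → C ⧸ 𝔭₂) :=
    AlgHom.prod ((Ideal.Quotient.mkₐ Λ 𝔭₁).compLeft ι) ((Ideal.Quotient.mkₐ Λ 𝔭₂).compLeft ι)
  have hφ_apply : ∀ x, φ x = (fun s => ψ₁ s x, fun s => ψ₂ s x) := fun x => rfl
  have hg_apply : ∀ c : ι → C,
      g c = (fun s => Ideal.Quotient.mk 𝔭₁ (c s), fun s => Ideal.Quotient.mk 𝔭₂ (c s)) :=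
    fun c => rfl
  have hφinj : Function.Injective φ := by
    rw [injective_iff_map_eq_zero]
    intro x hx
    rw [hφ_apply] at hx
    have h1 := congrArg Prod.fst hx
    have h2 := congrArg Prod.snd hx
    exact hinj x (fun s => congrFun h1 s) (fun s => congrFun h2 s)
  have hginj : Function.Injective g := by
    rw [injective_iff_map_eq_zero]
    intro c hc
    rw [hg_apply] at hc
    have h1 := congrArg Prod.fst hc
    have h2 := congrArg Prod.snd hc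
    funext s
    have h1s : c s ∈ 𝔭₁ := Ideal.Quotient.eq_zero_iff_mem.1 (congrFun h1 s)
    have h2s : c s ∈ 𝔭₂ := Ideal.Quotient.eq_zero_iff_mem.1 (congrFun h2 s)
    have : c s ∈ 𝔭₁ ⊓ 𝔭₂ := ⟨h1s, h2s⟩
    rw [h𝔭] at this
    exact this
  have hrankY : finrank Λ ((ι → C ⧸ 𝔭₁) × (ι → C ⧸ 𝔭₂)) = Fintype.card ι * Fintype.card κ := by
    rw [Module.finrank_prod, Module.finrank_pi_fintype, Module.finrank_pi_fintype]
    simp only [Finset.sum_const, Finset.card_univ, smul_eq_mul]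
    rw [← mul_add, hrankC]
  have hr : Fintype.card κ' = finrank Λ ((ι → C ⧸ 𝔭₁) × (ι → C ⧸ 𝔭₂)) := by
    rw [hrankY, hrankℭ]
  have hr' : Fintype.card (κ × ι) = finrank Λ ((ι → C ⧸ 𝔭₁) × (ι → C ⧸ 𝔭₂)) := by
    rw [hrankY, Fintype.card_prod, mul_comm]
  have hne' : Algebra.discr Λ (piBasis (ι := ι) bC) ≠ 0 := by
    rw [discr_piBasis]
    exact pow_ne_zero _ hne
  have hdvd' : Algebra.discr Λ bℭ ∣ Algebra.discr Λ (piBasis (ι := ι) bC) := by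
    rw [discr_piBasis]
    exact hdisc
  obtain ⟨F, F', hF, hF', hF'det, hdet⟩ :=
    exists_endo_of_discr_dvd bℭ (piBasis (ι := ι) bC) φ g hφinj hginj hr hr' hne' hdvd'
  have hmain := snd_surjective_of_det_dvd F F' hF'det hdet ?_ ?_
  · intro y
    obtain ⟨y₁, hy₁⟩ := hmain y
    rw [hF] at hy₁
    obtain ⟨x, hx⟩ := hy₁
    refine ⟨x, fun s => ?_⟩
    have hx' : φ x = (y₁, y) := hx
    rw [hφ_apply] at hx'
    exact congrFun (congrArg Prod.snd hx') s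
  · -- first parts
    intro y₁ hy₁
    rw [hF] at hy₁
    rw [hF']
    obtain ⟨x, hx⟩ := hy₁
    have hx' : φ x = (y₁, 0) := hx
    rw [hφ_apply] at hx'
    have hx1 : ∀ s, ψ₁ s x = y₁ s := fun s => congrFun (congrArg Prod.fst hx') s
    have hx2 : ∀ s, ψ₂ s x = 0 := fun s => congrFun (congrArg Prod.snd hx') s
    have hkey := exists_mem_of_forall_eq_zero 𝔭₁ 𝔭₂ hrad ψ₁ ψ₂ hψ₁ hnorm x hx2
    choose b hb hbx using hkey
    refine ⟨b, ?_⟩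
    show g b = (y₁, 0)
    rw [hg_apply]
    apply Prod.ext
    · funext s
      show Ideal.Quotient.mk 𝔭₁ (b s) = y₁ s
      rw [← hbx, hx1]
    · funext s
      show Ideal.Quotient.mk 𝔭₂ (b s) = 0
      exact Ideal.Quotient.eq_zero_iff_mem.2 (hb s)
  · -- second projection of the comparison lattice
    intro y₂
    rw [hF']
    have hsurj : ∀ s, ∃ c : C, Ideal.Quotient.mk 𝔭₂ c = y₂ s :=
      fun s => Ideal.Quotient.mk_surjective (y₂ s)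
    choose c hc using hsurj
    refine ⟨fun s => Ideal.Quotient.mk 𝔭₁ (c s), c, ?_⟩
    show g c = _
    rw [hg_apply]
    apply Prod.ext
    · rfl
    · funext s
      exact hc s

/-- **NODE-COUNT, comaximality form**: two different sheets of colour 2 are disjoint. -/
theorem ker_sup_ker_eq_top_of_discr_dvd
    (h𝔭 : 𝔭₁ ⊓ 𝔭₂ = ⊥) (hrad : (𝔭₁ ⊔ 𝔭₂).IsRadical)
    (bC : Basis κ Λ C) (bℭ : Basis κ' Λ ℭ)
    (hrankC : finrank Λ (C ⧸ 𝔭₁) + finrank Λ (C ⧸ 𝔭₂) = Fintype.card κ)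
    (hrankℭ : Fintype.card κ' = Fintype.card ι * Fintype.card κ)
    (ψ₁ : ι → ℭ →ₐ[Λ] C ⧸ 𝔭₁) (ψ₂ : ι → ℭ →ₐ[Λ] C ⧸ 𝔭₂)
    (hψ₁ : ∀ s c, ψ₁ s (algebraMap C ℭ c) = Ideal.Quotient.mk 𝔭₁ c)
    (hinj : ∀ x : ℭ, (∀ s, ψ₁ s x = 0) → (∀ s, ψ₂ s x = 0) → x = 0)
    (hnorm : ∀ x : ℭ, (∀ s, ψ₂ s x = 0) → ∃ k : ℕ, x ^ k ∈ 𝔭₂.map (algebraMap C ℭ))
    (hne : Algebra.discr Λ bC ≠ 0)
    (hdisc : Algebra.discr Λ bℭ ∣ Algebra.discr Λ bC ^ Fintype.card ι)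
    (s s' : ι) (hss' : s ≠ s') :
    RingHom.ker (ψ₂ s).toRingHom ⊔ RingHom.ker (ψ₂ s').toRingHom = ⊤ := by
  classical
  obtain ⟨x, hx⟩ := exists_forall_eq_of_discr_dvd 𝔭₁ 𝔭₂ h𝔭 hrad bC bℭ hrankC hrankℭ ψ₁ ψ₂
    hψ₁ hinj hnorm hne hdisc (Pi.single s 1)
  rw [Ideal.eq_top_iff_one]
  have h1 : (1 - x) ∈ RingHom.ker (ψ₂ s).toRingHom := by
    rw [RingHom.mem_ker]
    show ψ₂ s (1 - x) = 0
    rw [map_sub, map_one, hx s, Pi.single_eq_same, sub_self]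
  have h2 : x ∈ RingHom.ker (ψ₂ s').toRingHom := by
    rw [RingHom.mem_ker]
    show ψ₂ s' x = 0
    rw [hx s', Pi.single_eq_of_ne hss'.symm]
  have : (1 : ℭ) = (1 - x) + x := by ring
  rw [this]
  exact Submodule.add_mem _ (Ideal.mem_sup_left h1) (Ideal.mem_sup_right h2)

end Sheets

end Fermat.Agent.A2.H973
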