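import Mathlib.RingTheory.Ideal.Over
import Mathlib.RingTheory.Ideal.Quotient.Operations
import Mathlib.Algebra.Algebra.Basic
import Mathlib.RingTheory.Ideal.GoingUp
import Mathlib.RingTheory.Finiteness.Basic
import Fermat.Agent.A2.H973.Sheets
import Fermat.Agent.A2.H973.Norm

/-!
# A2 / COUNT glue, "upstairs" form (Mathlib-only)

Setting (all rings commutative): `P` (in the application `R[x]`), an ideal `I` of `P`
(`I = (w)`), `Λ := P ⧸ I` a PID (`k[x]`); `P`-algebras `B → B'` (charts of the base and of the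
cover); a finite group `G` acting on `B'` with `B'^G ⊆ B` (`Algebra.IsInvariant B B' G`);
ideals `p₁, p₂` of `B` (the two components) and ONE sheet `Q₁`, `Q₂` of the cover over each of
them (`Q_i ∩ B = p_i`, `B → B'/Q_i` onto).  The sheets of colour `i` are the conjugates of `Q_i`.

`exists_sheet_separator` : if the special fibre of the cover is reduced with no other components
(`hred`), the special fibres `C = B/IB`, `ℭ = B'/IB'` are free over `Λ` of ranks `n`, `#G·n`, and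
`discr ℭ ∣ (discr C) ^ #G ≠ 0`, then any two different conjugates of `Q₂` are comaximal:
for `g ≠ h` there is `a : B'` with `g • a ∈ Q₂` and `h • (1 - a) ∈ Q₂`.

`not_le_of_sheet_separator` : hence no proper ideal of `B'` contains two different conjugates
of `Q₂` — this is `h_uni` of `H12.wallG` / `H12.fixes_all`.
-/

set_option autoImplicit false
set_option linter.unusedSectionVars false

namespace Fermat.Agent.A2.H973

open Module

section SheetHom

variable {P : Type*} [CommRing P] (I : Ideal P)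
variable {B B' : Type*} [CommRing B] [CommRing B'] [Algebra P B] [Algebra P B'] [Algebra B B']
  [IsScalarTower P B B']

/-- `I B ⊆ (I B') ∩ B`. -/
theorem map_le_comap_map :
    I.map (algebraMap P B) ≤ (I.map (algebraMap P B')).comap (algebraMap B B') := by
  rw [← Ideal.map_le_iff_le_comap, Ideal.map_map, ← IsScalarTower.algebraMap_eq]

/-- The ring isomorphism `B ⧸ p ≃ B' ⧸ Q` for a sheet `Q` over the component `p`. -/
noncomputable def sheetEquiv (p : Ideal B) (Q : Ideal B')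
    (hQp : Q.comap (algebraMap B B') = p)
    (hQs : ∀ b' : B', ∃ b : B, b' - algebraMap B B' b ∈ Q) : B ⧸ p ≃+* B' ⧸ Q :=
  RingEquiv.ofBijective (Ideal.quotientMap Q (algebraMap B B') (le_of_eq hQp.symm))
    ⟨Ideal.quotientMap_injective' (le_of_eq hQp), by
      intro y
      obtain ⟨b', rfl⟩ := Ideal.Quotient.mk_surjective y
      obtain ⟨b, hb⟩ := hQs b'
      refine ⟨Ideal.Quotient.mk p b, ?_⟩
      rw [Ideal.quotientMap_mk]
      exact (Ideal.Quotient.eq.2 hb).symm⟩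

theorem sheetEquiv_mk (p : Ideal B) (Q : Ideal B')
    (hQp : Q.comap (algebraMap B B') = p)
    (hQs : ∀ b' : B', ∃ b : B, b' - algebraMap B B' b ∈ Q) (b : B) :
    sheetEquiv p Q hQp hQs (Ideal.Quotient.mk p b) = Ideal.Quotient.mk Q (algebraMap B B' b) :=
  rfl

/-- The sheet map `B' → (B ⧸ I B) ⧸ p̄` of a sheet `Q` over the component `p`. -/
noncomputable def sheetHom (p : Ideal B) (Q : Ideal B')
    (hQp : Q.comap (algebraMap B B') = p)
    (hQs : ∀ b' : B', ∃ b : B, b' - algebraMap B B' b ∈ Q) :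
    B' →+* (B ⧸ I.map (algebraMap P B)) ⧸
      p.map (Ideal.Quotient.mk (I.map (algebraMap P B))) :=
  (Ideal.quotientMap (p.map (Ideal.Quotient.mk (I.map (algebraMap P B))))
      (Ideal.Quotient.mk (I.map (algebraMap P B))) Ideal.le_comap_map).comp
    ((sheetEquiv p Q hQp hQs).symm.toRingHom.comp (Ideal.Quotient.mk Q))

theorem sheetHom_apply (p : Ideal B) (Q : Ideal B')
    (hQp : Q.comap (algebraMap B B') = p)
    (hQs : ∀ b' : B', ∃ b : B, b' - algebraMap B B' b ∈ Q) (x : B') :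
    sheetHom I p Q hQp hQs x =
      Ideal.quotientMap (p.map (Ideal.Quotient.mk (I.map (algebraMap P B))))
        (Ideal.Quotient.mk (I.map (algebraMap P B))) Ideal.le_comap_map
        ((sheetEquiv p Q hQp hQs).symm (Ideal.Quotient.mk Q x)) :=
  rfl

theorem sheetHom_algebraMap (p : Ideal B) (Q : Ideal B')
    (hQp : Q.comap (algebraMap B B') = p)
    (hQs : ∀ b' : B', ∃ b : B, b' - algebraMap B B' b ∈ Q) (b : B) :
    sheetHom I p Q hQp hQs (algebraMap B B' b) =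
      Ideal.Quotient.mk _ (Ideal.Quotient.mk (I.map (algebraMap P B)) b) := by
  have h1 : (sheetEquiv p Q hQp hQs).symm (Ideal.Quotient.mk Q (algebraMap B B' b)) =
      Ideal.Quotient.mk p b := by
    rw [RingEquiv.symm_apply_eq, sheetEquiv_mk]
  rw [sheetHom_apply, h1, Ideal.quotientMap_mk]

theorem sheetHom_eq_zero_iff (p : Ideal B) (Q : Ideal B')
    (hQp : Q.comap (algebraMap B B') = p)
    (hQs : ∀ b' : B', ∃ b : B, b' - algebraMap B B' b ∈ Q)
    (hIp : I.map (algebraMap P B) ≤ p) (x : B') :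
    sheetHom I p Q hQp hQs x = 0 ↔ x ∈ Q := by
  have hinj : Function.Injective
      (Ideal.quotientMap (p.map (Ideal.Quotient.mk (I.map (algebraMap P B))))
        (Ideal.Quotient.mk (I.map (algebraMap P B))) Ideal.le_comap_map) := by
    apply Ideal.quotientMap_injective'
    rw [Ideal.comap_map_of_surjective _ Ideal.Quotient.mk_surjective,
      ← RingHom.ker_eq_comap_bot, Ideal.mk_ker]
    exact sup_le le_rfl hIp
  rw [sheetHom_apply, map_eq_zero_iff _ hinj, map_eq_zero_iff _ (sheetEquiv p Q hQp hQs).symm.injective,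
    Ideal.Quotient.eq_zero_iff_mem]

end SheetHom

section Main

variable {P : Type*} [CommRing P] (I : Ideal P)
variable {B B' : Type*} [CommRing B] [CommRing B'] [Algebra P B] [Algebra P B'] [Algebra B B']
  [IsScalarTower P B B']
variable {G : Type*} [Group G] [MulSemiringAction G B'] [SMulCommClass G B B']

/-- The special fibre `B ⧸ I B`. -/
abbrev Fib (I : Ideal P) (B : Type*) [CommRing B] [Algebra P B] : Type _ :=
  B ⧸ I.map (algebraMap P B)

/-- The image in the special fibre of an ideal of `B`. -/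
abbrev fibIdeal (I : Ideal P) {B : Type*} [CommRing B] [Algebra P B] (p : Ideal B) :
    Ideal (Fib I B) :=
  p.map (Ideal.Quotient.mk (I.map (algebraMap P B)))

theorem smul_algebraMap_base (B : Type*) {B' : Type*} [CommRing B] [CommRing B'] [Algebra P B]
    [Algebra P B'] [Algebra B B'] [IsScalarTower P B B'] {G : Type*} [Group G]
    [MulSemiringAction G B'] [SMulCommClass G B B'] (g : G) (a : P) :
    g • algebraMap P B' a = algebraMap P B' a := by
  rw [IsScalarTower.algebraMap_apply P B B', smul_algebraMap]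

theorem smul_mem_map_base (B : Type*) {B' : Type*} [CommRing B] [CommRing B'] [Algebra P B]
    [Algebra P B'] [Algebra B B'] [IsScalarTower P B B'] {G : Type*} [Group G]
    [MulSemiringAction G B'] [SMulCommClass G B B'] (g : G) {x : B'}
    (hx : x ∈ I.map (algebraMap P B')) :
    g • x ∈ I.map (algebraMap P B') := by
  have h1 : (MulSemiringAction.toRingHom G B' g) x ∈
      (I.map (algebraMap P B')).map (MulSemiringAction.toRingHom G B' g) :=
    Ideal.mem_map_of_mem _ hx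
  rw [Ideal.map_map] at h1
  have h2 : (MulSemiringAction.toRingHom G B' g).comp (algebraMap P B') = algebraMap P B' := by
    apply RingHom.ext
    intro a
    exact smul_algebraMap_base B g a
  rw [h2] at h1
  exact h1

/-- The sheet map of the conjugate sheet, as a `Λ`-algebra map on the special fibre of the
cover: `x̄ ↦ θ (g • x)`, with kernel the image of `g⁻¹ • Q`. -/
noncomputable def sheetAlgHom (p : Ideal B) (Q : Ideal B')
    (hQp : Q.comap (algebraMap B B') = p)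
    (hQs : ∀ b' : B', ∃ b : B, b' - algebraMap B B' b ∈ Q)
    (hIp : I.map (algebraMap P B) ≤ p) (g : G) :
    Fib I B' →ₐ[P ⧸ I] (Fib I B ⧸ fibIdeal I p) :=
  { Ideal.Quotient.lift (I.map (algebraMap P B'))
      ((sheetHom I p Q hQp hQs).comp (MulSemiringAction.toRingHom G B' g))
      (fun x hx => by
        rw [RingHom.comp_apply, sheetHom_eq_zero_iff I p Q hQp hQs hIp]
        have h1 : g • x ∈ I.map (algebraMap P B') := smul_mem_map_base I B g hx
        have h2 : I.map (algebraMap P B') ≤ Q := by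
          rw [Ideal.map_le_iff_le_comap]
          intro a ha
          have h3 : algebraMap P B a ∈ p := hIp (Ideal.mem_map_of_mem _ ha)
          rw [← hQp, Ideal.mem_comap, ← IsScalarTower.algebraMap_apply] at h3
          exact h3
        exact h2 h1) with
    commutes' := by
      intro r
      obtain ⟨a, rfl⟩ := Ideal.Quotient.mk_surjective r
      show Ideal.Quotient.lift _ _ _ (Ideal.Quotient.mk _ (algebraMap P B' a)) = _
      rw [Ideal.Quotient.lift_mk, RingHom.comp_apply]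
      show sheetHom I p Q hQp hQs (g • algebraMap P B' a) = _
      rw [smul_algebraMap_base B, IsScalarTower.algebraMap_apply P B B', sheetHom_algebraMap]
      rfl }

theorem sheetAlgHom_mk (p : Ideal B) (Q : Ideal B')
    (hQp : Q.comap (algebraMap B B') = p)
    (hQs : ∀ b' : B', ∃ b : B, b' - algebraMap B B' b ∈ Q)
    (hIp : I.map (algebraMap P B) ≤ p) (g : G) (x : B') :
    sheetAlgHom I p Q hQp hQs hIp g (Ideal.Quotient.mk _ x) =
      sheetHom I p Q hQp hQs (g • x) :=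
  rfl

theorem sheetAlgHom_mk_eq_zero_iff (p : Ideal B) (Q : Ideal B')
    (hQp : Q.comap (algebraMap B B') = p)
    (hQs : ∀ b' : B', ∃ b : B, b' - algebraMap B B' b ∈ Q)
    (hIp : I.map (algebraMap P B) ≤ p) (g : G) (x : B') :
    sheetAlgHom I p Q hQp hQs hIp g (Ideal.Quotient.mk _ x) = 0 ↔ g • x ∈ Q := by
  rw [sheetAlgHom_mk, sheetHom_eq_zero_iff I p Q hQp hQs hIp]

end Main

section Separator

variable {P : Type*} [CommRing P] (I : Ideal P)
variable {B B' : Type*} [CommRing B] [CommRing B'] [Algebra P B] [Algebra P B'] [Algebra B B']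
  [IsScalarTower P B B']
variable {G : Type*} [Group G] [MulSemiringAction G B'] [SMulCommClass G B B']

/-- **COUNT, upstairs form.**  See the header of this file. -/
theorem exists_sheet_separator [Fintype G] [DecidableEq G] [Algebra.IsInvariant B B' G]
    [IsDomain (P ⧸ I)] [IsPrincipalIdealRing (P ⧸ I)]
    (p₁ p₂ : Ideal B) (hinf : p₁ ⊓ p₂ = I.map (algebraMap P B))
    (hrad : (p₁ ⊔ p₂).IsRadical)
    [Module.Free (P ⧸ I) (Fib I B ⧸ fibIdeal I p₁)]
    [Module.Free (P ⧸ I) (Fib I B ⧸ fibIdeal I p₂)]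
    (Q₁ Q₂ : Ideal B')
    (hQp₁ : Q₁.comap (algebraMap B B') = p₁) (hQp₂ : Q₂.comap (algebraMap B B') = p₂)
    (hQs₁ : ∀ b' : B', ∃ b : B, b' - algebraMap B B' b ∈ Q₁)
    (hQs₂ : ∀ b' : B', ∃ b : B, b' - algebraMap B B' b ∈ Q₂)
    (hred : ∀ x : B', (∀ g : G, g • x ∈ Q₁) → (∀ g : G, g • x ∈ Q₂) →
      x ∈ I.map (algebraMap P B'))
    {κ κ' : Type*} [Fintype κ] [DecidableEq κ] [Fintype κ'] [DecidableEq κ']
    (bC : Basis κ (P ⧸ I) (Fib I B)) (bℭ : Basis κ' (P ⧸ I) (Fib I B'))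
    (hrankC : finrank (P ⧸ I) (Fib I B ⧸ fibIdeal I p₁) +
      finrank (P ⧸ I) (Fib I B ⧸ fibIdeal I p₂) = Fintype.card κ)
    (hrankℭ : Fintype.card κ' = Fintype.card G * Fintype.card κ)
    (hne : Algebra.discr (P ⧸ I) bC ≠ 0)
    (hdisc : Algebra.discr (P ⧸ I) bℭ ∣ Algebra.discr (P ⧸ I) bC ^ Fintype.card G)
    (g h : G) (hgh : g ≠ h) :
    ∃ a : B', g • a ∈ Q₂ ∧ h • (1 - a) ∈ Q₂ := by
  have hIp₁ : I.map (algebraMap P B) ≤ p₁ := hinf ▸ inf_le_left
  have hIp₂ : I.map (algebraMap P B) ≤ p₂ := hinf ▸ inf_le_right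
  let algCℭ : Algebra (Fib I B) (Fib I B') :=
    Ideal.Quotient.algebraQuotientOfLEComap (map_le_comap_map I)
  have halg : ∀ b : B, algebraMap (Fib I B) (Fib I B') (Ideal.Quotient.mk _ b) =
      Ideal.Quotient.mk _ (algebraMap B B' b) := fun b => rfl
  have tower : IsScalarTower (P ⧸ I) (Fib I B) (Fib I B') :=
    IsScalarTower.of_algebraMap_eq (by
      intro r
      obtain ⟨a, rfl⟩ := Ideal.Quotient.mk_surjective r
      show Ideal.Quotient.mk _ (algebraMap P B' a) =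
        Ideal.Quotient.mk _ (algebraMap B B' (algebraMap P B a))
      rw [← IsScalarTower.algebraMap_apply])
  -- the hypotheses of the abstract theorem
  have h𝔭 : fibIdeal I p₁ ⊓ fibIdeal I p₂ = ⊥ := by
    rw [eq_bot_iff]
    intro c hc
    obtain ⟨b, rfl⟩ := Ideal.Quotient.mk_surjective c
    have h1 : b ∈ p₁ := (Ideal.mem_quotient_iff_mem hIp₁).1 hc.1
    have h2 : b ∈ p₂ := (Ideal.mem_quotient_iff_mem hIp₂).1 hc.2
    have h3 : b ∈ p₁ ⊓ p₂ := ⟨h1, h2⟩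
    rw [hinf] at h3
    exact Ideal.Quotient.eq_zero_iff_mem.2 h3
  have hrad' : (fibIdeal I p₁ ⊔ fibIdeal I p₂).IsRadical := by
    have hsup : fibIdeal I p₁ ⊔ fibIdeal I p₂ = fibIdeal I (p₁ ⊔ p₂) := (Ideal.map_sup _ _ _).symm
    rw [hsup]
    have hIp : I.map (algebraMap P B) ≤ p₁ ⊔ p₂ := hIp₁.trans le_sup_left
    rintro c ⟨k, hk⟩
    obtain ⟨b, rfl⟩ := Ideal.Quotient.mk_surjective c
    rw [← map_pow] at hk
    have h1 : b ^ k ∈ p₁ ⊔ p₂ := (Ideal.mem_quotient_iff_mem hIp).1 hk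
    exact (Ideal.mem_quotient_iff_mem hIp).2 (hrad ⟨k, h1⟩)
  have hψ₁ : ∀ (s : G) (c : Fib I B),
      sheetAlgHom I p₁ Q₁ hQp₁ hQs₁ hIp₁ s (algebraMap (Fib I B) (Fib I B') c) =
        Ideal.Quotient.mk (fibIdeal I p₁) c := by
    intro s c
    obtain ⟨b, rfl⟩ := Ideal.Quotient.mk_surjective c
    rw [halg, sheetAlgHom_mk, smul_algebraMap, sheetHom_algebraMap]
  have hinj : ∀ x : Fib I B', (∀ s : G, sheetAlgHom I p₁ Q₁ hQp₁ hQs₁ hIp₁ s x = 0) →
      (∀ s : G, sheetAlgHom I p₂ Q₂ hQp₂ hQs₂ hIp₂ s x = 0) → x = 0 := by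
    intro x h1 h2
    obtain ⟨y, rfl⟩ := Ideal.Quotient.mk_surjective x
    apply Ideal.Quotient.eq_zero_iff_mem.2
    apply hred
    · intro s
      exact (sheetAlgHom_mk_eq_zero_iff I p₁ Q₁ hQp₁ hQs₁ hIp₁ s y).1 (h1 s)
    · intro s
      exact (sheetAlgHom_mk_eq_zero_iff I p₂ Q₂ hQp₂ hQs₂ hIp₂ s y).1 (h2 s)
  have hnorm : ∀ x : Fib I B', (∀ s : G, sheetAlgHom I p₂ Q₂ hQp₂ hQs₂ hIp₂ s x = 0) →
      ∃ k : ℕ, x ^ k ∈ (fibIdeal I p₂).map (algebraMap (Fib I B) (Fib I B')) := by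
    intro x h2
    obtain ⟨y, rfl⟩ := Ideal.Quotient.mk_surjective x
    refine ⟨Fintype.card G, ?_⟩
    have h3 : ∀ s : G, s • y ∈ Q₂ := fun s =>
      (sheetAlgHom_mk_eq_zero_iff I p₂ Q₂ hQp₂ hQs₂ hIp₂ s y).1 (h2 s)
    have h4 := pow_card_mem_map_comap (B := B) Q₂ y h3
    rw [hQp₂] at h4
    have h5 : (fibIdeal I p₂).map (algebraMap (Fib I B) (Fib I B')) =
        (p₂.map (algebraMap B B')).map (Ideal.Quotient.mk (I.map (algebraMap P B'))) := by
      rw [Ideal.map_map, Ideal.map_map]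
      congr 1
    rw [h5, ← map_pow]
    exact Ideal.mem_map_of_mem _ h4
  have key := ker_sup_ker_eq_top_of_discr_dvd (fibIdeal I p₁) (fibIdeal I p₂) h𝔭 hrad' bC bℭ
    hrankC hrankℭ (fun s => sheetAlgHom I p₁ Q₁ hQp₁ hQs₁ hIp₁ s)
    (fun s => sheetAlgHom I p₂ Q₂ hQp₂ hQs₂ hIp₂ s) hψ₁ hinj hnorm hne hdisc g h hgh
  have h1 : (1 : Fib I B') ∈ RingHom.ker (sheetAlgHom I p₂ Q₂ hQp₂ hQs₂ hIp₂ g).toRingHom ⊔
      RingHom.ker (sheetAlgHom I p₂ Q₂ hQp₂ hQs₂ hIp₂ h).toRingHom := by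
    rw [key]; exact Submodule.mem_top
  obtain ⟨a', ha', b', hb', hab⟩ := Submodule.mem_sup.1 h1
  obtain ⟨a, rfl⟩ := Ideal.Quotient.mk_surjective a'
  refine ⟨a, ?_, ?_⟩
  · exact (sheetAlgHom_mk_eq_zero_iff I p₂ Q₂ hQp₂ hQs₂ hIp₂ g a).1 ha'
  · have hb'' : b' = Ideal.Quotient.mk _ (1 - a) := by
      rw [map_sub, map_one, ← hab]; ring
    rw [hb''] at hb'
    exact (sheetAlgHom_mk_eq_zero_iff I p₂ Q₂ hQp₂ hQs₂ hIp₂ h (1 - a)).1 hb'

/-- Consequence (`h_uni`): no proper ideal of `B'` contains two different conjugates of the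
sheet `Q₂`, in elementwise form. -/
theorem not_le_of_sheet_separator (Q : Ideal B') (g h : G)
    (hsep : ∃ a : B', g • a ∈ Q ∧ h • (1 - a) ∈ Q) (𝔫 : Ideal B') (h𝔫 : 𝔫 ≠ ⊤)
    (hg : ∀ x : B', g • x ∈ Q → x ∈ 𝔫) (hh : ∀ x : B', h • x ∈ Q → x ∈ 𝔫) : False := by
  obtain ⟨a, ha, hb⟩ := hsep
  apply h𝔫
  rw [Ideal.eq_top_iff_one]
  have : (1 : B') = a + (1 - a) := by ring
  rw [this]
  exact 𝔫.add_mem (hg a ha) (hh (1 - a) hb)

end Separator

section Rank

variable {Λ : Type*} [CommRing Λ] [IsDomain Λ] [IsPrincipalIdealRing Λ]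
variable {C : Type*} [CommRing C] [Algebra Λ C] [Module.Finite Λ C]

/-- A quotient of a finite `Λ`-algebra by a prime lying over `0` is free over the PID `Λ`. -/
theorem free_quotient_of_isPrime (𝔭 : Ideal C) [𝔭.IsPrime]
    (h𝔭 : 𝔭.comap (algebraMap Λ C) = ⊥) : Module.Free Λ (C ⧸ 𝔭) := by
  have hinj : Function.Injective (algebraMap Λ (C ⧸ 𝔭)) := by
    rw [injective_iff_map_eq_zero]
    intro a ha
    have h1 : algebraMap Λ C a ∈ 𝔭 := Ideal.Quotient.eq_zero_iff_mem.1 ha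
    have h2 : a ∈ 𝔭.comap (algebraMap Λ C) := h1
    rw [h𝔭] at h2
    exact h2
  have : Module.IsTorsionFree Λ (C ⧸ 𝔭) := Module.isTorsionFree_iff_algebraMap_injective.2 hinj
  have : Module.Finite Λ (C ⧸ 𝔭) :=
    Module.Finite.of_surjective (Ideal.Quotient.mkₐ Λ 𝔭).toLinearMap
      (Ideal.Quotient.mkₐ_surjective Λ 𝔭)
  infer_instance

/-- **Rank additivity for a two-component fibre.**  `𝔭₁ ⊓ 𝔭₂ = ⊥`, both primes lying over `0`
and `𝔭₂ ⊄ 𝔭₁`: then `rank C = rank (C/𝔭₁) + rank (C/𝔭₂)`. -/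
theorem finrank_quotient_add_finrank_quotient [Module.Free Λ C] (𝔭₁ 𝔭₂ : Ideal C)
    [𝔭₁.IsPrime] [𝔭₂.IsPrime]
    (h₁ : 𝔭₁.comap (algebraMap Λ C) = ⊥) (h₂ : 𝔭₂.comap (algebraMap Λ C) = ⊥)
    (hinf : 𝔭₁ ⊓ 𝔭₂ = ⊥) (hnle : ¬ 𝔭₂ ≤ 𝔭₁) :
    finrank Λ (C ⧸ 𝔭₁) + finrank Λ (C ⧸ 𝔭₂) = finrank Λ C := by
  have hfree₁ : Module.Free Λ (C ⧸ 𝔭₁) := free_quotient_of_isPrime 𝔭₁ h₁
  have hfree₂ : Module.Free Λ (C ⧸ 𝔭₂) := free_quotient_of_isPrime 𝔭₂ h₂
  have hfin₂ : Module.Finite Λ (C ⧸ 𝔭₂) :=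
    Module.Finite.of_surjective (Ideal.Quotient.mkₐ Λ 𝔭₂).toLinearMap
      (Ideal.Quotient.mkₐ_surjective Λ 𝔭₂)
  have htf₂ : Module.IsTorsionFree Λ (C ⧸ 𝔭₂) := inferInstance
  -- a nonzero element of `Λ` in `𝔭₁ + 𝔭₂`
  obtain ⟨y, hy₂, hy₁⟩ := Set.not_subset.1 hnle
  have hint : Algebra.IsIntegral Λ (C ⧸ 𝔭₁) := by
    have : Module.Finite Λ (C ⧸ 𝔭₁) :=
      Module.Finite.of_surjective (Ideal.Quotient.mkₐ Λ 𝔭₁).toLinearMap
        (Ideal.Quotient.mkₐ_surjective Λ 𝔭₁)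
    infer_instance
  have hne : (𝔭₂.map (Ideal.Quotient.mk 𝔭₁)).comap (algebraMap Λ (C ⧸ 𝔭₁)) ≠ ⊥ := by
    apply Ideal.comap_ne_bot_of_integral_mem (x := Ideal.Quotient.mk 𝔭₁ y)
    · intro h0
      exact hy₁ (Ideal.Quotient.eq_zero_iff_mem.1 h0)
    · exact Ideal.mem_map_of_mem _ hy₂
    · exact Algebra.IsIntegral.isIntegral _
  obtain ⟨a, ha, ha0⟩ := Submodule.exists_mem_ne_zero_of_ne_bot hne
  have ha' : algebraMap Λ C a ∈ 𝔭₁ ⊔ 𝔭₂ := by
    have h3 : algebraMap Λ C a ∈ (𝔭₂.map (Ideal.Quotient.mk 𝔭₁)).comap (Ideal.Quotient.mk 𝔭₁) :=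
      ha
    rw [Ideal.comap_map_of_surjective _ Ideal.Quotient.mk_surjective,
      ← RingHom.ker_eq_comap_bot, Ideal.mk_ker, sup_comm] at h3
    exact h3
  obtain ⟨u, hu, v, hv, huv⟩ := Submodule.mem_sup.1 ha'
  -- the submodule `N₁ = 𝔭₁`
  set N₁ : Submodule Λ C := 𝔭₁.restrictScalars Λ with hN₁
  have hq : finrank Λ (C ⧸ N₁) + finrank Λ N₁ = finrank Λ C :=
    Submodule.finrank_quotient_add_finrank N₁
  have hq' : finrank Λ (C ⧸ N₁) = finrank Λ (C ⧸ 𝔭₁) :=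
    LinearEquiv.finrank_eq (Submodule.Quotient.restrictScalarsEquiv Λ 𝔭₁)
  -- `N₁ ↪ C ⧸ 𝔭₂`
  have hle : finrank Λ N₁ ≤ finrank Λ (C ⧸ 𝔭₂) := by
    let f : N₁ →ₗ[Λ] (C ⧸ 𝔭₂) := (Ideal.Quotient.mkₐ Λ 𝔭₂).toLinearMap ∘ₗ N₁.subtype
    apply LinearMap.finrank_le_finrank_of_injective (f := f)
    rw [injective_iff_map_eq_zero]
    rintro ⟨x, hx⟩ hx0
    have h1 : x ∈ 𝔭₂ := Ideal.Quotient.eq_zero_iff_mem.1 hx0
    have h2 : x ∈ 𝔭₁ ⊓ 𝔭₂ := ⟨hx, h1⟩
    rw [hinf] at h2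
    exact Subtype.ext h2
  -- `C ⧸ 𝔭₂ ↪ N₁`, `c ↦ u c`
  have hge : finrank Λ (C ⧸ 𝔭₂) ≤ finrank Λ N₁ := by
    let m : C →ₗ[Λ] N₁ :=
      { toFun := fun c => ⟨u * c, Ideal.mul_mem_right c 𝔭₁ hu⟩
        map_add' := fun c d => Subtype.ext (mul_add u c d)
        map_smul' := fun r c => Subtype.ext (mul_smul_comm r u c) }
    have hm : (𝔭₂.restrictScalars Λ) ≤ LinearMap.ker m := by
      intro c hc
      rw [LinearMap.mem_ker]
      apply Subtype.ext
      show u * c = 0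
      have h1 : u * c ∈ 𝔭₁ ⊓ 𝔭₂ := ⟨Ideal.mul_mem_right c 𝔭₁ hu, Ideal.mul_mem_left 𝔭₂ u hc⟩
      rw [hinf] at h1
      exact h1
    let f : (C ⧸ 𝔭₂.restrictScalars Λ) →ₗ[Λ] N₁ := (𝔭₂.restrictScalars Λ).liftQ m hm
    have hf : Function.Injective f := by
      rw [injective_iff_map_eq_zero]
      intro z hz
      obtain ⟨c, rfl⟩ := Submodule.Quotient.mk_surjective _ z
      have h1 : u * c = 0 := congrArg Subtype.val hz
      have h2 : a • c ∈ 𝔭₂ := by
        have : a • c = u * c + v * c := by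
          rw [Algebra.smul_def, ← huv, add_mul]
        rw [this, h1, zero_add]
        exact Ideal.mul_mem_right c 𝔭₂ hv
      have h3 : a • (Ideal.Quotient.mk 𝔭₂ c) = 0 := by
        have : a • (Ideal.Quotient.mk 𝔭₂ c) = Ideal.Quotient.mk 𝔭₂ (a • c) := rfl
        rw [this]
        exact Ideal.Quotient.eq_zero_iff_mem.2 h2
      have h4 : Ideal.Quotient.mk 𝔭₂ c = 0 := by
        rcases smul_eq_zero.1 h3 with h | h
        · exact absurd h ha0
        · exact h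
      have h5 : c ∈ 𝔭₂ := Ideal.Quotient.eq_zero_iff_mem.1 h4
      exact (Submodule.Quotient.mk_eq_zero _).2 h5
    have h6 := LinearMap.finrank_le_finrank_of_injective hf
    have h7 : finrank Λ (C ⧸ 𝔭₂.restrictScalars Λ) = finrank Λ (C ⧸ 𝔭₂) :=
      LinearEquiv.finrank_eq (Submodule.Quotient.restrictScalarsEquiv Λ 𝔭₂)
    rw [h7] at h6
    exact h6
  omega

end Rank

section Convenient

variable {P : Type*} [CommRing P] (I : Ideal P)
variable {B B' : Type*} [CommRing B] [CommRing B'] [Algebra P B] [Algebra P B'] [Algebra B B']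
  [IsScalarTower P B B']
variable {G : Type*} [Group G] [MulSemiringAction G B'] [SMulCommClass G B B']

/-- The image of a prime containing `I B` in the special fibre is a prime. -/
theorem fibIdeal_isPrime (p : Ideal B) [p.IsPrime] (hIp : I.map (algebraMap P B) ≤ p) :
    (fibIdeal I p).IsPrime := by
  apply Ideal.map_isPrime_of_surjective Ideal.Quotient.mk_surjective
  rw [Ideal.mk_ker]
  exact hIp

/-- If `p ∩ P = I` then the image of `p` in the special fibre lies over `0` of `Λ = P ⧸ I`. -/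
theorem comap_fibIdeal_eq_bot (p : Ideal B) (hIp : I.map (algebraMap P B) ≤ p)
    (hpP : p.comap (algebraMap P B) = I) :
    (fibIdeal I p).comap (algebraMap (P ⧸ I) (Fib I B)) = ⊥ := by
  rw [eq_bot_iff]
  intro r hr
  obtain ⟨a, rfl⟩ := Ideal.Quotient.mk_surjective r
  have h1 : Ideal.Quotient.mk (I.map (algebraMap P B)) (algebraMap P B a) ∈ fibIdeal I p := hr
  have h2 : algebraMap P B a ∈ p := (Ideal.mem_quotient_iff_mem hIp).1 h1
  have h3 : a ∈ p.comap (algebraMap P B) := h2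
  rw [hpP] at h3
  exact Ideal.Quotient.eq_zero_iff_mem.2 h3

/-- **COUNT, upstairs form, with freeness and ranks derived** from: `p₁`, `p₂` primes of `B`
with `p_i ∩ P = I`, `p₂ ⊄ p₁`. -/
theorem exists_sheet_separator_of_isPrime [Fintype G] [DecidableEq G]
    [Algebra.IsInvariant B B' G]
    [IsDomain (P ⧸ I)] [IsPrincipalIdealRing (P ⧸ I)]
    (p₁ p₂ : Ideal B) [p₁.IsPrime] [p₂.IsPrime]
    (hinf : p₁ ⊓ p₂ = I.map (algebraMap P B)) (hrad : (p₁ ⊔ p₂).IsRadical)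
    (hpP₁ : p₁.comap (algebraMap P B) = I) (hpP₂ : p₂.comap (algebraMap P B) = I)
    (hnle : ¬ p₂ ≤ p₁)
    (Q₁ Q₂ : Ideal B')
    (hQp₁ : Q₁.comap (algebraMap B B') = p₁) (hQp₂ : Q₂.comap (algebraMap B B') = p₂)
    (hQs₁ : ∀ b' : B', ∃ b : B, b' - algebraMap B B' b ∈ Q₁)
    (hQs₂ : ∀ b' : B', ∃ b : B, b' - algebraMap B B' b ∈ Q₂)
    (hred : ∀ x : B', (∀ g : G, g • x ∈ Q₁) → (∀ g : G, g • x ∈ Q₂) →
      x ∈ I.map (algebraMap P B'))
    {κ κ' : Type*} [Fintype κ] [DecidableEq κ] [Fintype κ'] [DecidableEq κ']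
    (bC : Basis κ (P ⧸ I) (Fib I B)) (bℭ : Basis κ' (P ⧸ I) (Fib I B'))
    (hrankℭ : Fintype.card κ' = Fintype.card G * Fintype.card κ)
    (hne : Algebra.discr (P ⧸ I) bC ≠ 0)
    (hdisc : Algebra.discr (P ⧸ I) bℭ ∣ Algebra.discr (P ⧸ I) bC ^ Fintype.card G)
    (g h : G) (hgh : g ≠ h) :
    ∃ a : B', g • a ∈ Q₂ ∧ h • (1 - a) ∈ Q₂ := by
  have hIp₁ : I.map (algebraMap P B) ≤ p₁ := hinf ▸ inf_le_left
  have hIp₂ : I.map (algebraMap P B) ≤ p₂ := hinf ▸ inf_le_right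
  have hfinC : Module.Finite (P ⧸ I) (Fib I B) := Module.Finite.of_basis bC
  have hfreeC : Module.Free (P ⧸ I) (Fib I B) := Module.Free.of_basis bC
  have hprime₁ : (fibIdeal I p₁).IsPrime := fibIdeal_isPrime I p₁ hIp₁
  have hprime₂ : (fibIdeal I p₂).IsPrime := fibIdeal_isPrime I p₂ hIp₂
  have hbot₁ := comap_fibIdeal_eq_bot I p₁ hIp₁ hpP₁
  have hbot₂ := comap_fibIdeal_eq_bot I p₂ hIp₂ hpP₂
  have hfree₁ : Module.Free (P ⧸ I) (Fib I B ⧸ fibIdeal I p₁) :=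
    free_quotient_of_isPrime (fibIdeal I p₁) hbot₁
  have hfree₂ : Module.Free (P ⧸ I) (Fib I B ⧸ fibIdeal I p₂) :=
    free_quotient_of_isPrime (fibIdeal I p₂) hbot₂
  have h𝔭 : fibIdeal I p₁ ⊓ fibIdeal I p₂ = ⊥ := by
    rw [eq_bot_iff]
    intro c hc
    obtain ⟨b, rfl⟩ := Ideal.Quotient.mk_surjective c
    have h1 : b ∈ p₁ := (Ideal.mem_quotient_iff_mem hIp₁).1 hc.1
    have h2 : b ∈ p₂ := (Ideal.mem_quotient_iff_mem hIp₂).1 hc.2
    have h3 : b ∈ p₁ ⊓ p₂ := ⟨h1, h2⟩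
    rw [hinf] at h3
    exact Ideal.Quotient.eq_zero_iff_mem.2 h3
  have hnle' : ¬ fibIdeal I p₂ ≤ fibIdeal I p₁ := by
    intro hle
    apply hnle
    intro b hb
    have h1 : Ideal.Quotient.mk (I.map (algebraMap P B)) b ∈ fibIdeal I p₂ :=
      Ideal.mem_map_of_mem _ hb
    exact (Ideal.mem_quotient_iff_mem hIp₁).1 (hle h1)
  have hrankC : finrank (P ⧸ I) (Fib I B ⧸ fibIdeal I p₁) +
      finrank (P ⧸ I) (Fib I B ⧸ fibIdeal I p₂) = Fintype.card κ := by
    rw [finrank_quotient_add_finrank_quotient (fibIdeal I p₁) (fibIdeal I p₂) hbot₁ hbot₂ h𝔭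
      hnle', Module.finrank_eq_card_basis bC]
  exact exists_sheet_separator I p₁ p₂ hinf hrad Q₁ Q₂ hQp₁ hQp₂ hQs₁ hQs₂ hred bC bℭ hrankC
    hrankℭ hne hdisc g h hgh

end Convenient

section Both

variable {P : Type*} [CommRing P] (I : Ideal P)
variable {B B' : Type*} [CommRing B] [CommRing B'] [Algebra P B] [Algebra P B'] [Algebra B B']
  [IsScalarTower P B B']
variable {G : Type*} [Group G] [MulSemiringAction G B'] [SMulCommClass G B B']

/-- **COUNT, upstairs form, both colours** (`h_uni` of route G): under the hypotheses of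
`exists_sheet_separator_of_isPrime` (with `p₁ ⊄ p₂` and `p₂ ⊄ p₁`), no proper ideal `𝔫` of `B'`
contains two different conjugates `g⁻¹ Q_i ≠ h⁻¹ Q_i` of the same sheet. -/
theorem sheets_unique_at_ideal [Fintype G] [DecidableEq G]
    [Algebra.IsInvariant B B' G]
    [IsDomain (P ⧸ I)] [IsPrincipalIdealRing (P ⧸ I)]
    (p₁ p₂ : Ideal B) [p₁.IsPrime] [p₂.IsPrime]
    (hinf : p₁ ⊓ p₂ = I.map (algebraMap P B)) (hrad : (p₁ ⊔ p₂).IsRadical)
    (hpP₁ : p₁.comap (algebraMap P B) = I) (hpP₂ : p₂.comap (algebraMap P B) = I)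
    (hnle₁ : ¬ p₁ ≤ p₂) (hnle₂ : ¬ p₂ ≤ p₁)
    (Q₁ Q₂ : Ideal B')
    (hQp₁ : Q₁.comap (algebraMap B B') = p₁) (hQp₂ : Q₂.comap (algebraMap B B') = p₂)
    (hQs₁ : ∀ b' : B', ∃ b : B, b' - algebraMap B B' b ∈ Q₁)
    (hQs₂ : ∀ b' : B', ∃ b : B, b' - algebraMap B B' b ∈ Q₂)
    (hred : ∀ x : B', (∀ g : G, g • x ∈ Q₁) → (∀ g : G, g • x ∈ Q₂) →
      x ∈ I.map (algebraMap P B'))
    {κ κ' : Type*} [Fintype κ] [DecidableEq κ] [Fintype κ'] [DecidableEq κ']
    (bC : Basis κ (P ⧸ I) (Fib I B)) (bℭ : Basis κ' (P ⧸ I) (Fib I B'))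
    (hrankℭ : Fintype.card κ' = Fintype.card G * Fintype.card κ)
    (hne : Algebra.discr (P ⧸ I) bC ≠ 0)
    (hdisc : Algebra.discr (P ⧸ I) bℭ ∣ Algebra.discr (P ⧸ I) bC ^ Fintype.card G)
    (𝔫 : Ideal B') (h𝔫 : 𝔫 ≠ ⊤) (g h : G) :
    ((∀ x : B', g • x ∈ Q₁ → x ∈ 𝔫) → (∀ x : B', h • x ∈ Q₁ → x ∈ 𝔫) → g = h) ∧
    ((∀ x : B', g • x ∈ Q₂ → x ∈ 𝔫) → (∀ x : B', h • x ∈ Q₂ → x ∈ 𝔫) → g = h) := by
  constructor
  · intro hg hh
    by_contra hgh
    have hsep := exists_sheet_separator_of_isPrime I p₂ p₁ (by rw [inf_comm]; exact hinf)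
      (by rw [sup_comm]; exact hrad) hpP₂ hpP₁ hnle₁ Q₂ Q₁ hQp₂ hQp₁ hQs₂ hQs₁
      (fun x h2 h1 => hred x h1 h2) bC bℭ hrankℭ hne hdisc g h hgh
    exact not_le_of_sheet_separator Q₁ g h hsep 𝔫 h𝔫 hg hh
  · intro hg hh
    by_contra hgh
    have hsep := exists_sheet_separator_of_isPrime I p₁ p₂ hinf hrad hpP₁ hpP₂ hnle₂ Q₁ Q₂
      hQp₁ hQp₂ hQs₁ hQs₂ hred bC bℭ hrankℭ hne hdisc g h hgh
    exact not_le_of_sheet_separator Q₂ g h hsep 𝔫 h𝔫 hg hh

end Both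

end Fermat.Agent.A2.H973
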